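import Mathlib

/-!
# S44/Soft, abstract layer: definitions

`k` a field, `G` a group, `ρ : G →* Module.End k V` a representation (on the WHOLE type `V`).

* `Stable ρ U`  : the submodule `U` is `G`-stable;
* `Irr ρ`       : `V ≠ 0` and the only stable submodules are `⊥`, `⊤`;
* `res ρ U hU`  : the restricted representation on `↥U`;
* `IsScalar f`  : `f = c • 1`;
* `CH ρ om t`   : the "Cayley-Hamilton" relation `ρ g + om g • ρ g⁻¹ = t g • 1` for all `g`
                  (`om : G →* kˣ` plays the role of the determinant, `t` of the trace).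

Blueprint: board topic `S40`, post #2382 (7) (helper91), #2371 (helper37).
-/

set_option autoImplicit false

namespace Fermat.Agent.S44.Soft

variable {k G V : Type*} [Field k] [Group G] [AddCommGroup V] [Module k V]

/-- the submodule `U` is stable under `G`. -/
def Stable (ρ : G →* Module.End k V) (U : Submodule k V) : Prop :=
  ∀ g : G, ∀ x ∈ U, ρ g x ∈ U

/-- irreducible representation. -/
def Irr (ρ : G →* Module.End k V) : Prop :=
  Nontrivial V ∧ ∀ U : Submodule k V, Stable ρ U → U = ⊥ ∨ U = ⊤

/-- a scalar endomorphism. -/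
def IsScalar (f : Module.End k V) : Prop := ∃ c : k, f = c • (1 : Module.End k V)

/-- the relation `g + om(g) g⁻¹ = t(g)`. -/
def CH (ρ : G →* Module.End k V) (om : G →* kˣ) (t : G → k) : Prop :=
  ∀ g : G, ρ g + ((om g : kˣ) : k) • ρ g⁻¹ = t g • (1 : Module.End k V)

/-- the restriction of a representation to a stable submodule. -/
def res (ρ : G →* Module.End k V) (U : Submodule k V) (hU : Stable ρ U) :
    G →* Module.End k U where
  toFun g := (ρ g).restrict (hU g)
  map_one' := by
    ext x
    simp
  map_mul' g h := by
    ext x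
    simp

@[simp]
theorem res_apply (ρ : G →* Module.End k V) (U : Submodule k V) (hU : Stable ρ U) (g : G)
    (x : U) : ((res ρ U hU g x : U) : V) = ρ g (x : V) := rfl

theorem rho_inv_apply (ρ : G →* Module.End k V) (g : G) (x : V) : ρ g⁻¹ (ρ g x) = x := by
  rw [← Module.End.mul_apply, ← map_mul, inv_mul_cancel, map_one, Module.End.one_apply]

theorem rho_apply_inv (ρ : G →* Module.End k V) (g : G) (x : V) : ρ g (ρ g⁻¹ x) = x := by
  rw [← Module.End.mul_apply, ← map_mul, mul_inv_cancel, map_one, Module.End.one_apply]

theorem rho_mul_inv (ρ : G →* Module.End k V) (g : G) : ρ g * ρ g⁻¹ = 1 := by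
  rw [← map_mul, mul_inv_cancel, map_one]

theorem rho_inv_mul (ρ : G →* Module.End k V) (g : G) : ρ g⁻¹ * ρ g = 1 := by
  rw [← map_mul, inv_mul_cancel, map_one]

/-- elementwise form of `CH` on a stable submodule gives `CH` for the restriction. -/
theorem CH.res_of_forall {ρ : G →* Module.End k V} {om : G →* kˣ} {t : G → k}
    (U : Submodule k V) (hU : Stable ρ U)
    (h : ∀ g : G, ∀ x ∈ U, ρ g x + ((om g : kˣ) : k) • ρ g⁻¹ x = t g • x) :
    CH (res ρ U hU) om t := by
  intro g
  ext x
  exact h g x x.2

theorem CH.apply {ρ : G →* Module.End k V} {om : G →* kˣ} {t : G → k} (h : CH ρ om t) (g : G)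
    (x : V) : ρ g x + ((om g : kˣ) : k) • ρ g⁻¹ x = t g • x := by
  have := congrArg (fun f : Module.End k V => f x) (h g)
  simpa using this

theorem stable_bot (ρ : G →* Module.End k V) : Stable ρ ⊥ := by
  intro g x hx
  rw [Submodule.mem_bot] at hx ⊢
  rw [hx, map_zero]

theorem stable_top (ρ : G →* Module.End k V) : Stable ρ ⊤ := fun _ _ _ => trivial

theorem Stable.inf {ρ : G →* Module.End k V} {U U' : Submodule k V} (h : Stable ρ U)
    (h' : Stable ρ U') : Stable ρ (U ⊓ U') := fun g x hx => ⟨h g x hx.1, h' g x hx.2⟩

/-- the kernel of an operator `n` with `n ∘ ρ h = (something) ∘ n` is stable. -/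
theorem stable_ker_of_intertwine (ρ : G →* Module.End k V) (n : Module.End k V)
    (h : ∀ g : G, ∃ f : Module.End k V, n * ρ g = f * n) : Stable ρ (LinearMap.ker n) := by
  intro g x hx
  obtain ⟨f, hf⟩ := h g
  rw [LinearMap.mem_ker] at hx ⊢
  have := congrArg (fun e : Module.End k V => e x) hf
  simp only [Module.End.mul_apply] at this
  rw [this, hx, map_zero]

/-- the span of the orbit of a vector is stable. -/
theorem stable_span_orbit (ρ : G →* Module.End k V) (x : V) :
    Stable ρ (Submodule.span k (Set.range fun g : G => ρ g x)) := by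
  intro g y hy
  induction hy using Submodule.span_induction with
  | mem y hy =>
    obtain ⟨h, rfl⟩ := hy
    apply Submodule.subset_span
    exact ⟨g * h, by simp⟩
  | zero => rw [map_zero]; exact Submodule.zero_mem _
  | add y z _ _ hy hz => rw [map_add]; exact Submodule.add_mem _ hy hz
  | smul c y _ hy => rw [map_smul]; exact Submodule.smul_mem _ c hy

/-- in an irreducible representation the orbit of a nonzero vector spans. -/
theorem Irr.span_orbit {ρ : G →* Module.End k V} (h : Irr ρ) {x : V} (hx : x ≠ 0) :
    Submodule.span k (Set.range fun g : G => ρ g x) = ⊤ := by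
  rcases h.2 _ (stable_span_orbit ρ x) with h0 | h0
  · exfalso
    apply hx
    have : x ∈ Submodule.span k (Set.range fun g : G => ρ g x) :=
      Submodule.subset_span ⟨1, by simp⟩
    rw [h0] at this
    exact this
  · exact h0

end Fermat.Agent.S44.Soft
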