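import Fermat.Agent.S44.Defs
import Fermat.Agent.S58.Test
import Fermat.Agent.S44.Soft.AbsDefs

/-!
# S44/Soft, concrete layer: definitions

* `XX N p S a ≤ Kum N p` : the common eigenspace `T_ℓ x = a ℓ • x` (`ℓ ∉ S`);
* `torRep W p`           : the Galois representation on `E[p] = S58.Tor W p` (`ZMod p`-linear);
* `ES.galRep N p`        : the Galois representation on `Kum N p` (already in `ES/B/Module.lean`).
-/

set_option autoImplicit false

open AlgebraicCurve ModularCurve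

namespace Fermat.Agent.S44.Soft

open Fermat.Agent.ES Fermat.Agent.SS Fermat.Agent.S33 Fermat.Agent.S58

noncomputable section

/-- the common eigenspace of the `T_ℓ`, `ℓ ∉ S`, with eigenvalues `a ℓ`. -/
def XX (N p : ℕ) [NeZero N] (S : Finset ℕ) (a : ℕ → ℤ) : Submodule (ZMod p) (Kum N p) :=
  AddSubgroup.toZModSubmodule p
    { carrier := {x | ∀ (ℓ : ℕ) [NeZero ℓ] (hℓ : ℓ.Prime) (hℓN : ¬ ℓ ∣ N), ℓ ∉ S →
        heckeKum N ℓ hℓ hℓN p x = a ℓ • x}
      add_mem' := by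
        intro x y hx hy ℓ _ hℓ hℓN hS
        rw [map_add, hx ℓ hℓ hℓN hS, hy ℓ hℓ hℓN hS, smul_add]
      zero_mem' := by
        intro ℓ _ hℓ hℓN hS
        rw [map_zero, smul_zero]
      neg_mem' := by
        intro x hx ℓ _ hℓ hℓN hS
        rw [map_neg, hx ℓ hℓ hℓN hS, smul_neg] }

theorem mem_XX {N p : ℕ} [NeZero N] {S : Finset ℕ} {a : ℕ → ℤ} {x : Kum N p} :
    x ∈ XX N p S a ↔ ∀ (ℓ : ℕ) [NeZero ℓ] (hℓ : ℓ.Prime) (hℓN : ¬ ℓ ∣ N), ℓ ∉ S →
      heckeKum N ℓ hℓ hℓN p x = a ℓ • x := Iff.rfl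

/-- `XX` is Galois stable. -/
theorem stable_XX (N p : ℕ) [NeZero N] [Fact p.Prime] (S : Finset ℕ) (a : ℕ → ℤ) :
    Stable (galRep N p) (XX N p S a) := by
  intro g x hx ℓ _ hℓ hℓN hS
  rw [galRep_apply, ← galKum_heckeKum, hx ℓ hℓ hℓN hS, map_zsmul]

/-- the Galois representation on `E[p]`. -/
def torRep (W : WeierstrassCurve ℤ) (p : ℕ) : GQ →* Module.End (ZMod p) (Tor W p) :=
  WeierstrassCurve.Affine.Point.galoisRepModuleEnd (K := Qb) ℚ (EQ W) p

@[simp]
theorem torRep_apply (W : WeierstrassCurve ℤ) (p : ℕ) (g : GQ) (x : Tor W p) :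
    torRep W p g x = g • x := rfl

theorem coe_torRep_apply (W : WeierstrassCurve ℤ) (p : ℕ) (g : GQ) (x : Tor W p) :
    ((torRep W p g x : Tor W p) : Pts W) = g • (x : Pts W) := rfl

/-- the scalar action of `ZMod p` on a group killed by `p`, for integers. -/
theorem intCast_zmod_smul {p : ℕ} {X : Type*} [AddCommGroup X] [Module (ZMod p) X] (n : ℤ)
    (x : X) : ((n : ZMod p)) • x = n • x := Int.cast_smul_eq_zsmul (ZMod p) n x

theorem natCast_zmod_smul {p : ℕ} {X : Type*} [AddCommGroup X] [Module (ZMod p) X] (n : ℕ)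
    (x : X) : ((n : ZMod p)) • x = n • x := Nat.cast_smul_eq_nsmul (ZMod p) n x

/-- irreducibility, in the abstract language. -/
theorem irr_torRep (W : WeierstrassCurve ℤ) (p : ℕ) [Fact p.Prime]
    (h : WeierstrassCurve.Affine.Point.GaloisRepIsIrreducible (K := Qb) ℚ (EQ W) p) :
    Irr (torRep W p) :=
  ⟨h.1, fun U hU => h.2 U fun σ x hx => hU σ x hx⟩

/-- `g` acts trivially on `E[p]`. -/
theorem torRep_eq_one_iff (W : WeierstrassCurve ℤ) (p : ℕ) (g : GQ) :
    torRep W p g = 1 ↔ ∀ R : Pts W, p • R = 0 → g • R = R := by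
  constructor
  · intro h R hR
    have h1 := congrArg (fun f : Module.End (ZMod p) (Tor W p) =>
      ((f ⟨R, (Testb_mem_tor W p R).2 hR⟩ : Tor W p) : Pts W)) h
    exact h1
  · intro h
    ext x
    exact h x (Test_nsmul_coe W p x)

end

end Fermat.Agent.S44.Soft
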