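import Fermat.Agent.SS.New.Main
import Fermat.Agent.S49.DeligneSerre
import Fermat.Agent.S49.Congruence
import Fermat.Agent.S23
import Fermat.Agent.ES.Glue.Surj

/-!
# S44/Soft: (T0b), the separating polynomial

If no normalized eigenform of level `M` is congruent to `a` modulo a prime above `p`, there is a polynomial `Pol` in the `T_ℓ`, `ℓ ∉ S`, which kills all
`Kum M m` and with `p ∤ Pol(a)`.

Proof: otherwise `Pol(T) ↦ Pol(a) mod p` is a character `𝕋^{(S)} → 𝔽_p` (`cosupp_Kum`); Deligne-Serre (`S49.deligne_serre`) lifts it to characteristic `0`;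
`SS.exists_ringHom_extend`, `SS.exists_eigenvector_of_ringHom`, `SS.exists_isNormalizedEigenform_of_eigenvector` give the eigenform.
-/

set_option autoImplicit false

namespace Fermat.Agent.S44.Soft

open Fermat.Agent.ES Fermat.Agent.SS CuspForm ModularFormClass

/-- copy of `SS.exists_ringHom_of_relations` with an arbitrary commutative target. -/
theorem exists_ringHom_of_relations' {K : Type*} [CommRing K] (M : ℕ) [NeZero M] (S : Finset ℕ)
    (hMS : ∀ q : ℕ, q.Prime → q ∣ M → q ∈ S) (a : GP S → K)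
    (h : ∀ P : FreeAlgebra ℤ (GP S),
      FreeAlgebra.lift ℤ (fun ℓ : GP S => D.heckeS2 M (ℓ.good hMS)) P = 0 →
        FreeAlgebra.lift ℤ a P = 0) :
    ∃ χ : heckeAlgebra M 2 (↑S : Set ℕ) →+* K, ∀ ℓ : GP S,
      χ (heckeAlgebra.T ℓ.2.1 (ℓ.good hMS).2.2 ℓ.notMem_coe) = a ℓ := by
  classical
  set Φ := FreeAlgebra.lift ℤ (fun ℓ : GP S => D.heckeS2 M (ℓ.good hMS)) with hΦ
  set Ψ := FreeAlgebra.lift ℤ a with hΨ
  have hwd : ∀ P P' : FreeAlgebra ℤ (GP S), Φ P = Φ P' → Ψ P = Ψ P' := by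
    intro P P' hPP
    have := h (P - P') (by rw [map_sub, hPP, sub_self])
    rw [map_sub, sub_eq_zero] at this
    exact this
  have hex : ∀ t : heckeAlgebra M 2 (↑S : Set ℕ), ∃ P, Φ P = (t : Module.End ℂ _) :=
    fun t => RingHomAux.exists_lift_eq M S hMS t.1 t.2
  choose sec hsec using hex
  refine ⟨{ toFun := fun t => Ψ (sec t)
            map_one' := ?_
            map_mul' := ?_
            map_zero' := ?_
            map_add' := ?_ }, ?_⟩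
  · rw [← map_one Ψ]
    exact hwd _ _ (by rw [hsec, map_one]; rfl)
  · intro x y
    rw [← map_mul Ψ]
    exact hwd _ _ (by rw [hsec, map_mul, hsec, hsec]; rfl)
  · rw [← map_zero Ψ]
    exact hwd _ _ (by rw [hsec, map_zero]; rfl)
  · intro x y
    rw [← map_add Ψ]
    exact hwd _ _ (by rw [hsec, map_add, hsec, hsec]; rfl)
  · intro ℓ
    show Ψ (sec _) = a ℓ
    have h1 : Ψ (FreeAlgebra.ι ℤ ℓ) = a ℓ := by rw [hΨ, FreeAlgebra.lift_ι_apply]
    rw [← h1]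
    refine hwd _ _ ?_
    rw [hsec, hΦ, FreeAlgebra.lift_ι_apply]
    rfl

/-- change of the index type. -/
theorem lift_comp_good {B : Type*} [Ring B] [Algebra ℤ B] {M : ℕ} {S : Finset ℕ}
    (hMS : ∀ q : ℕ, q.Prime → q ∣ M → q ∈ S) (b : D.GoodPrime M → B)
    (P : FreeAlgebra ℤ (GP S)) :
    FreeAlgebra.lift ℤ b
        (FreeAlgebra.lift ℤ (fun ℓ : GP S => FreeAlgebra.ι ℤ (ℓ.good hMS)) P)
      = FreeAlgebra.lift ℤ (fun ℓ : GP S => b (ℓ.good hMS)) P := by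
  have : (FreeAlgebra.lift ℤ b).comp
      (FreeAlgebra.lift ℤ (fun ℓ : GP S => FreeAlgebra.ι ℤ (ℓ.good hMS)))
      = FreeAlgebra.lift ℤ (fun ℓ : GP S => b (ℓ.good hMS)) := by
    apply FreeAlgebra.hom_ext
    funext x
    simp
  exact DFunLike.congr_fun this P

theorem lift_intCast {K : Type*} [CommRing K] {ι : Type*} (a : ι → ℤ) (P : FreeAlgebra ℤ ι) :
    FreeAlgebra.lift ℤ (fun i => ((a i : ℤ) : K)) P = ((FreeAlgebra.lift ℤ a P : ℤ) : K) := by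
  have : FreeAlgebra.lift ℤ (fun i => ((a i : ℤ) : K))
      = ((Int.castRingHom K).toIntAlgHom).comp (FreeAlgebra.lift ℤ a) := by
    apply FreeAlgebra.hom_ext
    funext x
    simp
  rw [this]
  rfl

theorem exists_pol (M p : ℕ) [NeZero M] (hp : p.Prime) (S : Finset ℕ)
    (hMS : ∀ q : ℕ, q.Prime → q ∣ M → q ∈ S) (a : ℕ → ℤ)
    (hno : ¬ ∃ (g : CuspForm (CongruenceSubgroup.Gamma0 M) 2)
      (𝔪 : Ideal (integralClosure ℤ ℂ)), g.IsNormalizedEigenform ∧ 𝔪.IsMaximal ∧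
        (p : integralClosure ℤ ℂ) ∈ 𝔪 ∧ ∀ ℓ : ℕ, ℓ.Prime → ℓ ∉ S →
          ∃ b : integralClosure ℤ ℂ, (b : ℂ) = qCoeff g ℓ ∧
            b - ((a ℓ : ℤ) : integralClosure ℤ ℂ) ∈ 𝔪) :
    ∃ Pol : FreeAlgebra ℤ (GP S),
      (∀ m : ℕ, 0 < m → FreeAlgebra.lift ℤ (fun ℓ : GP S => heckeT M m (ℓ.good hMS)) Pol = 0) ∧
      ¬ (p : ℤ) ∣ FreeAlgebra.lift ℤ (fun ℓ : GP S => a ℓ.1) Pol := by
  by_contra hcon
  push Not at hcon
  apply hno
  have : Fact p.Prime := ⟨hp⟩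
  -- the character mod `p`
  obtain ⟨χb, hχb⟩ := exists_ringHom_of_relations' (K := ZMod p) M S hMS
    (fun ℓ : GP S => ((a ℓ.1 : ℤ) : ZMod p)) (by
      intro P hP
      rw [lift_intCast (fun ℓ : GP S => a ℓ.1), ZMod.intCast_zmod_eq_zero_iff_dvd]
      apply hcon
      intro m hm
      rw [← lift_comp_good hMS]
      apply Glue.cosupp_Kum hm
      rw [lift_comp_good hMS]
      exact hP)
  -- Deligne-Serre
  let ρ : heckeAlgebra M 2 (↑S : Set ℕ) →+*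
      Module.End ℂ (CuspForm (CongruenceSubgroup.Gamma0 M) 2) :=
    (heckeAlgebra M 2 (↑S : Set ℕ)).val.toRingHom
  have hρ : Function.Injective ρ := Subtype.val_injective
  have hstab : ∀ t : heckeAlgebra M 2 (↑S : Set ℕ), ∀ x ∈ intLattice M 2,
      ρ t x ∈ intLattice M 2 := fun t x hx =>
    mem_intLattice_of_mem_heckeAlgebra (by norm_num) t.2 hx
  have hne : RingHom.ker χb ≠ ⊤ := RingHom.ker_ne_top χb
  obtain ⟨lam, v, 𝔪', -, -, h𝔪'max, h𝔪'⟩ :=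
    S49.deligne_serre ρ hρ (intLattice M 2) (intLattice_fg M 2) (S23.result M) hstab
      (RingHom.ker χb) hne
  let χ : heckeAlgebra M 2 (↑S : Set ℕ) →+* ℂ :=
    ((integralClosure ℤ ℂ).val.toRingHom).comp lam
  obtain ⟨χ', hχ'⟩ := exists_ringHom_extend M (↑S : Set ℕ) χ
  obtain ⟨f, hf, hfχ⟩ := exists_eigenvector_of_ringHom M (∅ : Set ℕ) χ'
  obtain ⟨g, hg, hgχ⟩ := exists_isNormalizedEigenform_of_eigenvector M χ' f hf hfχ
  refine ⟨g, 𝔪', hg, h𝔪'max, ?_, ?_⟩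
  · have h1 : ((p : ℕ) : heckeAlgebra M 2 (↑S : Set ℕ)) ∈ RingHom.ker χb := by
      rw [RingHom.mem_ker, map_natCast, ZMod.natCast_self]
    have h2 := h𝔪' _ h1
    rwa [map_natCast] at h2
  · intro ℓ hℓ hℓS
    have hℓM : ¬ ℓ ∣ M := fun h => hℓS (hMS ℓ hℓ h)
    let ℓ' : GP S := ⟨ℓ, hℓ, hℓS⟩
    refine ⟨lam (heckeAlgebra.T ℓ'.2.1 (ℓ'.good hMS).2.2 ℓ'.notMem_coe), ?_, ?_⟩
    · rw [hgχ ℓ hℓ hℓM]
      have h1 := hχ' (heckeAlgebra.T ℓ'.2.1 (ℓ'.good hMS).2.2 ℓ'.notMem_coe)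
      exact h1.symm
    · have h1 : heckeAlgebra.T ℓ'.2.1 (ℓ'.good hMS).2.2 ℓ'.notMem_coe
          - ((a ℓ : ℤ) : heckeAlgebra M 2 (↑S : Set ℕ)) ∈ RingHom.ker χb := by
        rw [RingHom.mem_ker, map_sub, hχb ℓ', map_intCast, sub_self]
      have h2 := h𝔪' _ h1
      rwa [map_sub, map_intCast] at h2

end Fermat.Agent.S44.Soft
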