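import Fermat.Agent.S44.Soft.AbsDefs

/-!
# S44/Soft, abstract layer: Lucas sequences   [TASK `S44/Soft-AbsLuc`]

`luc a d j = α^j + β^j` for the roots `α, β` of `X² - a X + d`.

`luc_rel`: in a `k`-algebra `R` (we use `R = Module.End k V`): `u * v = 1 = v * u`, `u + d • v = a • 1`  ==>  `u ^ j + d ^ j • v ^ j = luc a d j • 1`.
Two-step induction (`Nat.twoStepInduction` / `induction j using Nat.strong_induction_on`):
`(u + d v)(u^(j+1) + d^(j+1) v^(j+1)) = u^(j+2) + d^(j+2) v^(j+2) + d (u^j + d^j v^j)` using `u v = v u = 1` (`u`, `v` commute).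
`luc_split`: `luc (1 + d) d j = 1 + d ^ j`, two-step induction + `ring`.
-/

set_option autoImplicit false

namespace Fermat.Agent.S44.Soft

variable {k : Type*} [Field k]

/-- the Lucas sequence `V_j(a, d)`. -/
def luc (a d : k) : ℕ → k
  | 0 => 2
  | 1 => a
  | (j + 2) => a * luc a d (j + 1) - d * luc a d j

theorem luc_rel {R : Type*} [Ring R] [Algebra k R] (a d : k) (u v : R) (huv : u * v = 1)
    (hvu : v * u = 1) (h : u + d • v = a • (1 : R)) (j : ℕ) :
    u ^ j + d ^ j • v ^ j = luc a d j • (1 : R) := by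
  induction j using Nat.twoStepInduction with
  | zero => simp [luc, two_smul]
  | one => simpa [luc] using h
  | more j ih0 ih1 =>
    have h1 : u * v ^ (j + 1) = v ^ j := by rw [pow_succ', ← mul_assoc, huv, one_mul]
    have h2 : v * u ^ (j + 1) = u ^ j := by rw [pow_succ', ← mul_assoc, hvu, one_mul]
    have key : (u + d • v) * (u ^ (j + 1) + d ^ (j + 1) • v ^ (j + 1)) =
        (u ^ (j + 2) + d ^ (j + 2) • v ^ (j + 2)) + d • (u ^ j + d ^ j • v ^ j) := by
      rw [add_mul, mul_add, mul_add, mul_smul_comm, smul_mul_assoc, smul_mul_assoc,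
        mul_smul_comm, h1, h2, ← pow_succ' u, ← pow_succ' v, smul_smul, smul_add, smul_smul,
        ← pow_succ' d, ← pow_succ' d]
      abel
    rw [h, ih0, ih1] at key
    rw [eq_sub_of_add_eq key.symm, luc, smul_mul_assoc, one_mul, smul_smul, smul_smul, sub_smul]

theorem luc_split (d : k) (j : ℕ) : luc (1 + d) d j = 1 + d ^ j := by
  induction j using Nat.twoStepInduction with
  | zero => simp only [luc, pow_zero]; norm_num
  | one => simp only [luc, pow_one]
  | more j ih0 ih1 =>
    rw [luc, ih0, ih1]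
    ring

end Fermat.Agent.S44.Soft
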