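import Fermat.Agent.S44.Soft.Om
import Fermat.Agent.S44.Soft.AbsLuc
import Fermat.Agent.S31.Glue
import Fermat.Agent.Crux.Main

/-!
# S44/Soft: the common relation (CH) on `E[p]` and on the eigenspace `XX ≤ Kum N p`   [TASK `S44/Soft-Approx`]

For every `g : GQ` there are a prime `ℓ ∉ S` and `j` with `om g = ℓ ^ j` and `g + om(g) g⁻¹ = luc a_ℓ ℓ j` on `E[p]` AND on `XX`.

PROOF.  `ρtot := (torRep W p).prod ((galRep N p).prod (om p))` (a monoid hom to a product of monoids, all in `Type`).  It factors through a finite level: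
`FD.factorsThroughFiniteLevel_prod` (file `Lib/FrobDensity/Apps.lean`), `S58.Test_finiteLevel` (stated for `DistribMulAction.toAddMonoidEnd`; same `L`, `LinearMap.ext`/`DFunLike.congr_fun`),
`S31.finiteLevel_of_smooth` + `galKum_smooth` + `finite_Kum` (as in `S31.kumTest`; again stated for `AddMonoid.End`: unfold `GaloisFactorsThroughFiniteLevel`, same `L`), `om_finiteLevel`.
`FD.exists_frobenius_of_finiteLevel ρtot _ g S` gives `ℓ ∉ S`, `A`, `φ` Frobenius, `j` with `ρtot g = ρtot φ ^ j`; so `torRep g = torRep φ ^ j`, `galRep g = galRep φ ^ j`, `om g = om φ ^ j = ℓ ^ j` (`om_frob`; `ℓ ≠ p` as `p ∈ S`).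
 * On `E[p]`: `S58.Test_es W (odd p) hℓ (good: ℓ ∤ Δ since ℓ ∉ S) (ℓ ∤ p) A hA φ hφ x : φ φ x - a_ℓ φ x + ℓ x = 0`.  Apply it to `φ⁻¹ x`:  `u + ℓ • v = a_ℓ • 1` with `u := torRep φ`, `v := torRep φ⁻¹`.
   `luc_rel`: `u ^ j + ℓ ^ j • v ^ j = luc a_ℓ ℓ j • 1`;  `u ^ j = torRep g`; `v ^ j = torRep (φ ^ j)⁻¹`, and `torRep g⁻¹ = v ^ j` because both are inverses of `torRep g = u ^ j`
   (`left_inv_eq_right_inv`, `rho_inv_mul`, `rho_mul_inv`).
 * On `XX`: the same with `ρX := res (galRep N p) (XX ..) (stable_XX ..)`, `u := ρX φ`, `v := ρX φ⁻¹`; `eichlerShimura_Kum hp.ne_zero hℓ hℓN (Crux.crux N ℓ p hℓ hℓN hℓp) A hA φ hφ x` and `T_ℓ (φ x) = a_ℓ • φ x` since `φ x ∈ XX`.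
   Integer scalars versus `ZMod p` scalars: `intCast_zmod_smul`, `natCast_zmod_smul` (Soft/Defs.lean).
-/

set_option autoImplicit false

namespace Fermat.Agent.S44.Soft

open Fermat.Agent.ES Fermat.Agent.SS Fermat.Agent.S33 Fermat.Agent.S58

/-- from the quadratic relation of `φ` to `φ + d φ⁻¹ = a`. -/
theorem Approx_of_quad {k G V : Type*} [Field k] [Group G] [AddCommGroup V] [Module k V]
    (ρ : G →* Module.End k V) (φ : G) (a d : k)
    (h : ∀ x, ρ φ (ρ φ x) - a • ρ φ x + d • x = 0) :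
    ρ φ + d • ρ φ⁻¹ = a • (1 : Module.End k V) := by
  refine LinearMap.ext fun x => ?_
  have h1 := h (ρ φ⁻¹ x)
  rw [rho_apply_inv, sub_add_eq_add_sub, sub_eq_zero] at h1
  simpa only [LinearMap.add_apply, LinearMap.smul_apply, Module.End.one_apply] using h1

/-- the relation for `g` with `ρ g = ρ φ ^ j`. -/
theorem Approx_rel {k G V : Type*} [Field k] [Group G] [AddCommGroup V] [Module k V]
    (ρ : G →* Module.End k V) (φ g : G) (j : ℕ) (hg : ρ g = ρ φ ^ j) (a d : k)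
    (h : ρ φ + d • ρ φ⁻¹ = a • (1 : Module.End k V)) :
    ρ g + d ^ j • ρ g⁻¹ = luc a d j • (1 : Module.End k V) := by
  have h1 := luc_rel a d (ρ φ) (ρ φ⁻¹) (rho_mul_inv ρ φ) (rho_inv_mul ρ φ) h j
  have h2 : ρ g⁻¹ = ρ φ⁻¹ ^ j := by
    apply left_inv_eq_right_inv (rho_inv_mul ρ g)
    rw [hg, ← map_pow, ← map_pow, ← map_mul, inv_pow, mul_inv_cancel, map_one]
  rw [h2, hg]
  exact h1

theorem exists_approx {p : ℕ} [Fact p.Prime] (hp2 : p ≠ 2) (N : ℕ) [NeZero N]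
    (W : WeierstrassCurve ℤ) (hΔ : W.Δ ≠ 0) (S : Finset ℕ) (hpS : p ∈ S)
    (hNS : ∀ q : ℕ, q.Prime → q ∣ N → q ∈ S) (hWS : ∀ q : ℕ, q.Prime → (q : ℤ) ∣ W.Δ → q ∈ S)
    (g : GQ) :
    ∃ ℓ j : ℕ, ℓ.Prime ∧ ℓ ∉ S ∧ ((om p g : (ZMod p)ˣ) : ZMod p) = (ℓ : ZMod p) ^ j ∧
      torRep W p g + ((om p g : (ZMod p)ˣ) : ZMod p) • torRep W p g⁻¹
        = luc ((W.apOfModel ℓ : ℤ) : ZMod p) (ℓ : ZMod p) j • (1 : Module.End (ZMod p) (Tor W p)) ∧
      ∀ x ∈ XX N p S (fun ℓ => W.apOfModel ℓ),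
        galRep N p g x + ((om p g : (ZMod p)ˣ) : ZMod p) • galRep N p g⁻¹ x
          = luc ((W.apOfModel ℓ : ℤ) : ZMod p) (ℓ : ZMod p) j • x := by
  have hp : p.Prime := Fact.out
  have hfl1 : GaloisFactorsThroughFiniteLevel (torRep W p) := by
    obtain ⟨L, hL, h⟩ := Test_finiteLevel W hΔ p hp.pos
    refine ⟨L, hL, fun σ hσ => LinearMap.ext fun x => ?_⟩
    exact DFunLike.congr_fun (h σ hσ) x
  have hfl2 : GaloisFactorsThroughFiniteLevel (galRep N p) := by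
    have : Finite (Kum N p) := Fermat.Agent.ES.Glue.finite_Kum hp.pos
    obtain ⟨L, hL, h⟩ := Fermat.Agent.S31.finiteLevel_of_smooth (Fermat.Agent.S31.galEnd N p)
      (galKum_smooth N p)
    refine ⟨L, hL, fun σ hσ => LinearMap.ext fun x => ?_⟩
    exact DFunLike.congr_fun (h σ hσ) x
  obtain ⟨ℓ, A, φ, hℓ, hℓS, hA, hφ, -, -, ⟨j, hj⟩⟩ :=
    Fermat.Agent.FD.exists_frobenius_of_finiteLevel
      ((torRep W p).prod ((galRep N p).prod (om p)))
      (Fermat.Agent.FD.factorsThroughFiniteLevel_prod _ _ hfl1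
        (Fermat.Agent.FD.factorsThroughFiniteLevel_prod _ _ hfl2 (om_finiteLevel p))) g S
  have e1 : torRep W p g = torRep W p φ ^ j := congrArg Prod.fst hj
  have e2 : galRep N p g = galRep N p φ ^ j := congrArg (fun z => z.2.1) hj
  have e3 : om p g = om p φ ^ j := congrArg (fun z => z.2.2) hj
  have hℓp : ℓ ≠ p := fun h => hℓS (h ▸ hpS)
  have hℓp' : ¬ ℓ ∣ p := fun h => hℓp ((Nat.prime_dvd_prime_iff_eq hℓ hp).mp h)
  have hℓN : ¬ ℓ ∣ N := fun h => hℓS (hNS ℓ hℓ h)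
  have : NeZero ℓ := ⟨hℓ.ne_zero⟩
  have hom : ((om p g : (ZMod p)ˣ) : ZMod p) = (ℓ : ZMod p) ^ j := by
    rw [e3, Units.val_pow_eq_pow_val, om_frob p hℓ hℓp A hA φ hφ]
  refine ⟨ℓ, j, hℓ, hℓS, hom, ?_, ?_⟩
  · rw [hom]
    apply Approx_rel _ φ g j e1
    apply Approx_of_quad
    intro x
    have h1 := Test_es W (hp.odd_of_ne_two hp2) hℓ (fun h => hℓS (hWS ℓ hℓ h)) hℓp' A hA φ hφ x
    rw [AddMonoid.End.intCast_apply] at h1
    rw [intCast_zmod_smul, natCast_zmod_smul]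
    exact h1
  · intro x hx
    rw [hom]
    have hst := stable_XX N p S (fun ℓ => W.apOfModel ℓ)
    have e2' : res (galRep N p) _ hst g = res (galRep N p) _ hst φ ^ j := by
      rw [← map_pow]
      refine LinearMap.ext fun y => Subtype.ext ?_
      rw [res_apply, res_apply, e2, map_pow]
    have h2 := Approx_rel (res (galRep N p) _ hst) φ g j e2' ((W.apOfModel ℓ : ℤ) : ZMod p)
      (ℓ : ZMod p) (by
        apply Approx_of_quad
        intro y
        apply Subtype.ext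
        have h1 := eichlerShimura_Kum hp.ne_zero hℓ hℓN
          (Fermat.Agent.Crux.crux N ℓ p hℓ hℓN hℓp') A hA φ hφ (y : Kum N p)
        have h3 : heckeKum N ℓ hℓ hℓN p (galKum N p φ (y : Kum N p))
            = W.apOfModel ℓ • galKum N p φ (y : Kum N p) :=
          (hst φ y y.2) ℓ hℓ hℓN hℓS
        rw [h3] at h1
        rw [intCast_zmod_smul, natCast_zmod_smul]
        exact h1)
    have h4 := congrArg (fun f : Module.End (ZMod p) (XX N p S (fun ℓ => W.apOfModel ℓ)) =>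
      ((f ⟨x, hx⟩ : XX N p S (fun ℓ => W.apOfModel ℓ)) : Kum N p)) h2
    exact h4

end Fermat.Agent.S44.Soft
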