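import Mathlib

/-!
# S44/Soft, abstract layer: eigenVECTORS from the support property   [TASK `S44/Soft-AbsEigen`]

`V` a finite abelian group, `T i` commuting endomorphisms, `lam i : ℤ`, `p` prime; every noncommutative polynomial `P` with `P(T) = 0` has `p ∣ P(lam)`.
Then there is `x ≠ 0` with `T i x = lam i • x` for all `i`.

PROOF A (direct).  `R := (FreeAlgebra.lift ℤ T).range`, a finite commutative ring acting faithfully on `V` (copy the first 25 lines of the proof of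
`Fermat.Agent.ES.D.exists_eigenfunctional`, file `ES/D/Support.lean`: `hcomm`, `hfin`, `hfaith`, `θ`, `χ : R →+* ZMod p`, `hχ`).  `𝔪 := ker χ`.
 `R` is finite, so the chain `𝔪 ^ n` stabilises: `𝔪 ^ n = 𝔪 ^ (n+1) = 𝔪 • 𝔪 ^ n` for some `n` (`IsArtinianRing`/ finiteness, e.g. `IsArtinian.monotone_stabilizes`
 or `Ideal.IsNilpotent`-free: pigeonhole).  `Submodule.exists_sub_one_mem_and_smul_eq_zero_of_fg_of_le_smul 𝔪 (𝔪 ^ n)` gives `r` with `r - 1 ∈ 𝔪`, `r • 𝔪 ^ n = 0`; `r ≠ 0` because `χ r = 1`.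
 Let `j` be minimal with `r * z = 0` for all `z ∈ 𝔪 ^ j` (`Nat.find`; `j ≠ 0` as `r ≠ 0`).  So there is `z ∈ 𝔪 ^ (j-1)` with `r z ≠ 0`, and `m * (r z) = 0` for all `m ∈ 𝔪`.
 Faithful: `v` with `x := (r z) v ≠ 0`.  `T i - lam i ∈ 𝔪` (as `χ (θ (ι i)) = lam i`), so `T i x = lam i • x`.
PROOF B (duality): apply `ES.D.exists_eigenfunctional` to the dual `V →+ ZMod p` ... (see board #2371 (e)); A is probably shorter.
You may add `import Fermat.Agent.ES.D.Support` if useful.
-/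

set_option autoImplicit false

namespace Fermat.Agent.S44.Soft

/-- socle argument: a character of a finite commutative ring acting faithfully on `V` has a nonzero vector killed
by its kernel. -/
theorem exists_killed_of_faithful {R V K : Type*} [CommRing R] [Finite R]
    [AddCommGroup V] [Module R V] [FaithfulSMul R V] [Field K]
    (χ : R →+* K) : ∃ x : V, x ≠ 0 ∧ ∀ m ∈ RingHom.ker χ, m • x = 0 := by
  classical
  obtain ⟨𝔪, h𝔪⟩ : ∃ 𝔪 : Ideal R, 𝔪 = RingHom.ker χ := ⟨_, rfl⟩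
  rw [← h𝔪]
  -- the chain of powers stabilises
  obtain ⟨n, hn⟩ := IsArtinian.monotone_stabilizes (R := R) (M := R)
    ⟨fun n => OrderDual.toDual (𝔪 ^ n), fun a b hab => Ideal.pow_le_pow_right hab⟩
  have hn1 : 𝔪 ^ n = 𝔪 ^ (n + 1) := OrderDual.toDual.injective (hn (n + 1) (Nat.le_succ n))
  obtain ⟨r, hr1, hr0⟩ := Submodule.exists_sub_one_mem_and_smul_eq_zero_of_fg_of_le_smul
    𝔪 (𝔪 ^ n : Ideal R) (IsNoetherian.noetherian _) (by
      rw [smul_eq_mul, ← pow_succ', ← hn1])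
  have hχr : χ r = 1 := by
    rw [h𝔪, RingHom.mem_ker, map_sub, map_one, sub_eq_zero] at hr1
    exact hr1
  have hr : r ≠ 0 := by
    intro h
    rw [h, map_zero] at hχr
    exact zero_ne_one hχr
  have hex : ∃ j : ℕ, ∀ z ∈ 𝔪 ^ j, r * z = 0 := ⟨n, fun z hz => hr0 z hz⟩
  have hj := Nat.find_spec hex
  have hj0 : Nat.find hex ≠ 0 := by
    intro h0
    rw [h0] at hj
    exact hr (by simpa using hj 1 (by simp))
  obtain ⟨k, hk⟩ := Nat.exists_eq_succ_of_ne_zero hj0
  have hmin := Nat.find_min hex (m := k) (by omega)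
  push Not at hmin
  obtain ⟨z, hz, hrz⟩ := hmin
  have hkill : ∀ m ∈ 𝔪, m * (r * z) = 0 := by
    intro m hm
    have := hj (m * z) (by
      rw [hk, Nat.succ_eq_add_one, pow_succ']
      exact Ideal.mul_mem_mul hm hz)
    rw [← this]; ring
  have hv : ∃ v : V, (r * z) • v ≠ 0 := by
    by_contra hcon
    push Not at hcon
    apply hrz
    apply FaithfulSMul.eq_of_smul_eq_smul (α := V)
    intro v
    rw [hcon v, zero_smul]
  obtain ⟨v, hv⟩ := hv
  refine ⟨(r * z) • v, hv, fun m hm => ?_⟩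
  rw [smul_smul, hkill m hm, zero_smul]

open scoped IsMulCommutative in
theorem exists_eigenvector {V ι : Type*} [AddCommGroup V] [Finite V] {p : ℕ} (hp : p.Prime)
    (T : ι → Module.End ℤ V) (hT : ∀ i j, Commute (T i) (T j)) (lam : ι → ℤ)
    (h : ∀ P : FreeAlgebra ℤ ι, FreeAlgebra.lift ℤ T P = 0 → (p : ℤ) ∣ FreeAlgebra.lift ℤ lam P) :
    ∃ x : V, x ≠ 0 ∧ ∀ i, T i x = lam i • x := by
  classical
  have : Fact p.Prime := ⟨hp⟩
  have hcomm : IsMulCommutative (FreeAlgebra.lift ℤ T).range := by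
    rw [← Algebra.adjoin_range_eq_range_freeAlgebra_lift]
    apply Algebra.isMulCommutative_adjoin
    rintro _ ⟨i, rfl⟩ _ ⟨j, rfl⟩
    exact hT i j
  have hfinEnd : Finite (Module.End ℤ V) := Finite.of_injective (fun f => (f : V → V))
    DFunLike.coe_injective
  have hfin : Finite (FreeAlgebra.lift ℤ T).range := Subtype.finite
  have hfaith : FaithfulSMul (FreeAlgebra.lift ℤ T).range V := ⟨fun {a b} hab => by
    apply Subtype.ext
    ext v
    exact hab v⟩
  let θ : FreeAlgebra ℤ ι →+* (FreeAlgebra.lift ℤ T).range :=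
    (FreeAlgebra.lift ℤ T).rangeRestrict.toRingHom
  have hθ : Function.Surjective θ := (FreeAlgebra.lift ℤ T).rangeRestrict_surjective
  let χ : (FreeAlgebra.lift ℤ T).range →+* ZMod p :=
    RingHom.liftOfSurjective θ hθ
      ⟨(Int.castRingHom (ZMod p)).comp (FreeAlgebra.lift ℤ lam).toRingHom, by
      intro P hP
      rw [RingHom.mem_ker] at hP ⊢
      exact (ZMod.intCast_zmod_eq_zero_iff_dvd _ p).mpr (h P (congrArg Subtype.val hP))⟩
  have hχ : ∀ P, χ (θ P) = ((FreeAlgebra.lift ℤ lam P : ℤ) : ZMod p) := fun P =>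
    RingHom.liftOfRightInverse_comp_apply θ _ _ _ P
  obtain ⟨x, hx0, hx⟩ := exists_killed_of_faithful (V := V) χ
  refine ⟨x, hx0, fun i => ?_⟩
  have h1 := hx (θ (FreeAlgebra.ι ℤ i - algebraMap ℤ _ (lam i))) (by
    rw [RingHom.mem_ker, hχ, map_sub, FreeAlgebra.lift_ι_apply, AlgHom.commutes]
    simp)
  have h2 : (θ (FreeAlgebra.ι ℤ i - algebraMap ℤ _ (lam i))) • x
      = (FreeAlgebra.lift ℤ T (FreeAlgebra.ι ℤ i - algebraMap ℤ _ (lam i))) x := rfl
  rw [h2, map_sub, FreeAlgebra.lift_ι_apply, AlgHom.commutes, LinearMap.sub_apply,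
    Module.algebraMap_end_apply, sub_eq_zero] at h1
  exact h1

end Fermat.Agent.S44.Soft
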