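import Fermat.Agent.S44.Soft.Defs
import Fermat.Agent.S44.Soft.AbsEigen
import Fermat.Agent.ES.D.Eigen
import Fermat.Agent.ES.Glue.Supp
import Fermat.Agent.Crux.Main

/-!
# S44/Soft: (T0a) and (T0b)   [TASK `S44/Soft-New`]

`exists_new` (T0a): an eigenform `f` of level `N` which is congruent to `a` modulo a maximal ideal `𝔪 ∋ p` gives a nonzero element of `XX N p S a`.
 PROOF.  `K := integralClosure ℤ ℂ ⧸ 𝔪` (field, `CharP K p`: `(p : K) = 0` + `CharP.charP_iff_prime_eq_zero`/`ringChar`), `φ := Ideal.Quotient.mk 𝔪`.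
 `Mod := ES.esModule N p hp.ne_zero (fun ℓ hℓ h => Crux.crux N ℓ p hℓ (..) (..)) (finite_Kum hp.pos) (Glue.suppProp hp.pos) : D.ESModule N p` (see how `ES/Glue` or `S29`/`S42`/`SS/Top/S35Core.lean` build it), `Mod.T = heckeT N p`.
 Apply `exists_eigenvector hp (T := fun ℓ : GP S => heckeT N p (ℓ.good hNS)) _ (lam := fun ℓ => a ℓ.1)`.  Commutation: `Mod.T_comm`.  Hypothesis `h`: given `P : FreeAlgebra ℤ (GP S)` with `P(T) = 0`,
 let `P' := FreeAlgebra.lift ℤ (fun ℓ => FreeAlgebra.ι ℤ (ℓ.good hNS)) P : FreeAlgebra ℤ (D.GoodPrime N)`; `lift g P' = lift (g ∘ good) P` for every `g` (`FreeAlgebra.hom_ext`, `AlgHom.comp`).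
 `D.supp_eigen Mod hf hp.pos φ P' _ : lift (fun ℓ => φ (eigenvalue hf ℓ)) P' = 0`.  `φ (eigenvalue hf (ℓ.good hNS)) = ((a ℓ.1 : ℤ) : K)` by `hcong` (`b = eigenvalue` by `Subtype.ext`, `Ideal.Quotient.eq`).
 `lift (fun ℓ => ((a ℓ.1 : ℤ) : K)) P = ((lift (fun ℓ => a ℓ.1) P : ℤ) : K)` (again `FreeAlgebra.hom_ext` with `Int.castRingHom K` as `ℤ`-algebra hom), `CharP.intCast_eq_zero_iff K p`.
 Finally `heckeT_apply` translates `T i x = lam i • x` into `mem_XX` (`⟨ℓ, hℓ, hS⟩ : GP S`).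

`eq_zero_of_old` (T0b): `x ∈ XX M p S a`.  By induction on `P` (`FreeAlgebra.induction`): `lift (heckeT M p ∘ good) P x = lift a P • x`.  So `c • x = 0` with `p ∤ c`, and `p • x = 0` (`Kum.nsmul_eq_zero`): Bezout (`Int.isCoprime_iff_gcd_eq_one`, `IsCoprime`), `x = 0`.
-/

set_option autoImplicit false

open AlgebraicCurve ModularCurve

namespace Fermat.Agent.S44.Soft

open Fermat.Agent.ES Fermat.Agent.SS Fermat.Agent.S33

/-- (helper) reindexing of noncommutative polynomials along `GP S → GoodPrime N`. -/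
theorem New_lift_good {N : ℕ} {S : Finset ℕ} (hNS : ∀ q : ℕ, q.Prime → q ∣ N → q ∈ S)
    {B : Type*} [Semiring B] [Algebra ℤ B] (g : D.GoodPrime N → B) (P : FreeAlgebra ℤ (GP S)) :
    FreeAlgebra.lift ℤ g
        (FreeAlgebra.lift ℤ (fun ℓ : GP S => FreeAlgebra.ι ℤ (ℓ.good hNS)) P)
      = FreeAlgebra.lift ℤ (fun ℓ : GP S => g (ℓ.good hNS)) P := by
  have h : (FreeAlgebra.lift ℤ g).comp
      (FreeAlgebra.lift ℤ (fun ℓ : GP S => FreeAlgebra.ι ℤ (ℓ.good hNS)))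
      = FreeAlgebra.lift ℤ (fun ℓ : GP S => g (ℓ.good hNS)) := by
    apply FreeAlgebra.hom_ext
    funext ℓ
    simp
  exact DFunLike.congr_fun h P

/-- (helper) integer eigenvalues, cast to a ring. -/
theorem New_lift_intCast {ι K : Type*} [Ring K] (lam : ι → ℤ) (P : FreeAlgebra ℤ ι) :
    FreeAlgebra.lift ℤ (fun i => ((lam i : ℤ) : K)) P = ((FreeAlgebra.lift ℤ lam P : ℤ) : K) := by
  have h : FreeAlgebra.lift ℤ (fun i => ((lam i : ℤ) : K))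
      = ((Int.castRingHom K).toIntAlgHom).comp (FreeAlgebra.lift ℤ lam) := by
    apply FreeAlgebra.hom_ext
    funext i
    simp
  rw [h]
  rfl

theorem exists_new (N p : ℕ) [NeZero N] (hp : p.Prime) (S : Finset ℕ)
    (hNS : ∀ q : ℕ, q.Prime → q ∣ N → q ∈ S) (hpS : p ∈ S) (a : ℕ → ℤ)
    (f : CuspForm (CongruenceSubgroup.Gamma0 N) 2) (hf : f.IsNormalizedEigenform)
    (𝔪 : Ideal (integralClosure ℤ ℂ)) (h𝔪 : 𝔪.IsMaximal) (hp𝔪 : (p : integralClosure ℤ ℂ) ∈ 𝔪)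
    (hcong : ∀ ℓ : ℕ, ℓ.Prime → ℓ ∉ S → ∃ b : integralClosure ℤ ℂ,
      (b : ℂ) = ModularFormClass.qCoeff f ℓ ∧ b - ((a ℓ : ℤ) : integralClosure ℤ ℂ) ∈ 𝔪) :
    ∃ x : Kum N p, x ≠ 0 ∧ x ∈ XX N p S a := by
  classical
  let _ : Field (integralClosure ℤ ℂ ⧸ 𝔪) := Ideal.Quotient.field 𝔪
  have hpK : (p : integralClosure ℤ ℂ ⧸ 𝔪) = 0 := by
    have h : Ideal.Quotient.mk 𝔪 (p : integralClosure ℤ ℂ) = 0 :=
      Ideal.Quotient.eq_zero_iff_mem.2 hp𝔪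
    rwa [map_natCast] at h
  have hchar : CharP (integralClosure ℤ ℂ ⧸ 𝔪) p := (CharP.charP_iff_prime_eq_zero hp).2 hpK
  let Mod : D.ESModule N p := Glue.esModuleOfCrux hp.pos (fun ℓ hℓ hℓNm =>
    Fermat.Agent.Crux.crux N ℓ p hℓ (fun h => hℓNm (Dvd.dvd.mul_right h p))
      (fun h => hℓNm (Dvd.dvd.mul_left h N)))
  have hfin : Finite (Kum N p) := Glue.finite_Kum hp.pos
  have h : ∀ P : FreeAlgebra ℤ (GP S),
      FreeAlgebra.lift ℤ (fun ℓ : GP S => heckeT N p (ℓ.good hNS)) P = 0 →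
      (p : ℤ) ∣ FreeAlgebra.lift ℤ (fun ℓ : GP S => a ℓ.1) P := by
    intro P hP
    have h1 : FreeAlgebra.lift ℤ Mod.T
        (FreeAlgebra.lift ℤ (fun ℓ : GP S => FreeAlgebra.ι ℤ (ℓ.good hNS)) P) = 0 :=
      (New_lift_good hNS (heckeT N p) P).trans hP
    have h2 := D.supp_eigen Mod hf hp.pos (Ideal.Quotient.mk 𝔪) _ h1
    rw [New_lift_good hNS] at h2
    have h4 : (fun ℓ : GP S => Ideal.Quotient.mk 𝔪 (D.eigenvalue hf (ℓ.good hNS)))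
        = fun ℓ : GP S => ((a ℓ.1 : ℤ) : integralClosure ℤ ℂ ⧸ 𝔪) := by
      funext ℓ
      obtain ⟨b, hb, hbm⟩ := hcong ℓ.1 ℓ.2.1 ℓ.2.2
      have hbe : b = D.eigenvalue hf (ℓ.good hNS) := Subtype.ext hb
      rw [← hbe, (Ideal.Quotient.eq).2 hbm, map_intCast]
    rw [h4, New_lift_intCast] at h2
    exact (CharP.intCast_eq_zero_iff (integralClosure ℤ ℂ ⧸ 𝔪) p _).1 h2
  obtain ⟨x, hx0, hx⟩ := exists_eigenvector hp (V := Kum N p)
    (fun ℓ : GP S => heckeT N p (ℓ.good hNS)) (fun i j => Mod.T_comm _ _) (fun ℓ => a ℓ.1) h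
  refine ⟨x, hx0, ?_⟩
  rw [mem_XX]
  intro ℓ _ hℓ hℓN hS
  exact hx ⟨ℓ, hℓ, hS⟩

/-- (helper) a polynomial in the `T_ℓ` acts on the eigenspace through the eigenvalues. -/
theorem New_lift_apply (M p : ℕ) [NeZero M] (S : Finset ℕ)
    (hMS : ∀ q : ℕ, q.Prime → q ∣ M → q ∈ S) (a : ℕ → ℤ) (x : Kum M p) (hx : x ∈ XX M p S a)
    (P : FreeAlgebra ℤ (GP S)) :
    FreeAlgebra.lift ℤ (fun ℓ : GP S => heckeT M p (ℓ.good hMS)) P x
      = FreeAlgebra.lift ℤ (fun ℓ : GP S => a ℓ.1) P • x := by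
  induction P using FreeAlgebra.induction with
  | grade0 r => simp
  | grade1 ℓ =>
    rw [FreeAlgebra.lift_ι_apply, FreeAlgebra.lift_ι_apply, heckeT_apply]
    have : NeZero ℓ.1 := ⟨ℓ.2.1.ne_zero⟩
    exact (mem_XX.1 hx) ℓ.1 ℓ.2.1 _ ℓ.2.2
  | mul A B hA hB =>
    rw [map_mul, map_mul, Module.End.mul_apply, hB, map_zsmul, hA, smul_smul, mul_comm]
  | add A B hA hB =>
    rw [map_add, map_add, LinearMap.add_apply, hA, hB, add_smul]

theorem eq_zero_of_old (M p : ℕ) [NeZero M] (hp : p.Prime) (S : Finset ℕ)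
    (hMS : ∀ q : ℕ, q.Prime → q ∣ M → q ∈ S) (a : ℕ → ℤ) (P : FreeAlgebra ℤ (GP S))
    (hP : FreeAlgebra.lift ℤ (fun ℓ : GP S => heckeT M p (ℓ.good hMS)) P = 0)
    (hPa : ¬ (p : ℤ) ∣ FreeAlgebra.lift ℤ (fun ℓ : GP S => a ℓ.1) P)
    (x : Kum M p) (hx : x ∈ XX M p S a) : x = 0 := by
  have h1 := New_lift_apply M p S hMS a x hx P
  rw [hP, LinearMap.zero_apply] at h1
  have hcop : IsCoprime (p : ℤ) (FreeAlgebra.lift ℤ (fun ℓ : GP S => a ℓ.1) P) :=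
    (Nat.prime_iff_prime_int.1 hp).coprime_iff_not_dvd.2 hPa
  obtain ⟨u, v, huv⟩ := hcop
  have h2 : (p : ℤ) • x = 0 := by
    rw [natCast_zsmul]
    exact Kum.nsmul_eq_zero x
  calc x = (1 : ℤ) • x := (one_smul _ _).symm
    _ = (u * (p : ℤ) + v * FreeAlgebra.lift ℤ (fun ℓ : GP S => a ℓ.1) P) • x := by rw [huv]
    _ = 0 := by rw [add_smul, mul_smul, mul_smul, h2, ← h1, smul_zero, smul_zero, add_zero]

end Fermat.Agent.S44.Soft
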