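import Fermat.Agent.S44.Soft.AbsDefs

/-!
# S44/Soft, abstract layer: (LINE)   [TASK `S44/Soft-AbsLine`]

`V` irreducible with `CH ρ om t`; `s₀ ∈ G` with `c := om s₀ ≠ 1`; `Vc ≤ V` with `(s₀ - 1) V ⊆ Vc` and `s₀ = c` on `Vc`; some `g` is not scalar.
Then `Vc = k y₀` is a line and `V = k y₀ ⊕ k y` with `s₀ y = y`.

PROOF (all in the ring `Module.End k V`).  `σ := ρ s₀`, `e := (c - 1)⁻¹ • (σ - 1)`.
 (1) `range e ⊆ Vc` (ha), `e x = x` for `x ∈ Vc` (hb); hence `e * e = e`, and `x ∈ Vc ↔ e x = x`.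
 (2) `σ = 1 + (c - 1) • e`, `ρ s₀⁻¹ = 1 + (c⁻¹ - 1) • e`  (the product of the two right hand sides is `1`, by `e * e = e`; `ρ s₀⁻¹` is THE inverse of `σ`).
 (3) for `g : G`, `γ := ρ g`, `γ' := ρ g⁻¹`:  `CH` for `g * s₀`: `γ σ + om(g) c • (ρ s₀⁻¹ γ') = t (g * s₀)`;  minus `CH` for `g`:
        `γ e + om(g) • (1 - e) γ' = τ g • 1`,   `τ g := (t (g * s₀) - t g) / (c - 1)`.
 (4) multiply by `e` on the left: `e γ e = τ g • e`.  Multiply by `1 - e` on the right: `om(g) • (1 - e) γ' (1 - e) = τ g • (1 - e)`.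
 (5) `e ≠ 0`: otherwise (3) says `om(g) • γ' = τ g • 1` for all `g`, every `ρ g⁻¹` is scalar, so everything is scalar: contradiction with `hns`.
     `e ≠ 1`: otherwise (3) says `γ = τ g • 1`: the same contradiction.
 (6) choose `y₀ = e z₀ ≠ 0` and `y = (1 - e) z ≠ 0`.  `e y₀ = y₀`, `e y = 0`.  `y₀ ∈ Vc`; `y ∉ Vc` (else `y = e y = 0`); `σ y = y + (c - 1) • e y = y`.
 (7) `Irr.span_orbit`: `span {ρ g y₀} = ⊤ ≤ comap e (span {y₀})` since `e (γ y₀) = e γ e y₀ = τ g • y₀`.  So `e x ∈ span {y₀}` for all `x`.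
     In the same way (orbit written with `g⁻¹`: `ρ g y = ρ (g⁻¹)⁻¹ y`) `(1 - e) x ∈ span {y}` for all `x`.
     `Submodule.mem_span_singleton`.  `x = e x + (1 - e) x`.
-/

set_option autoImplicit false

namespace Fermat.Agent.S44.Soft

variable {k G V : Type*} [Field k] [Group G] [AddCommGroup V] [Module k V]

/-- **(LINE)** -/
theorem line_structure {ρ : G →* Module.End k V} {om : G →* kˣ} {t : G → k} (hirr : Irr ρ)
    (hCH : CH ρ om t) (hns : ∃ g : G, ¬ IsScalar (ρ g)) (s₀ : G) (hs₀ : om s₀ ≠ 1)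
    (Vc : Submodule k V) (ha : ∀ x : V, ρ s₀ x - x ∈ Vc)
    (hb : ∀ x ∈ Vc, ρ s₀ x = ((om s₀ : kˣ) : k) • x) :
    ∃ y₀ y : V, y₀ ≠ 0 ∧ y₀ ∈ Vc ∧ y ∉ Vc ∧ ρ s₀ y = y ∧ (∀ x ∈ Vc, ∃ n : k, x = n • y₀) ∧
      ∀ x : V, ∃ m n : k, x = m • y₀ + n • y := by
  set c : k := ((om s₀ : kˣ) : k) with hc
  have hc0 : c ≠ 0 := (om s₀).ne_zero
  have hc1 : c - 1 ≠ 0 := by
    intro h
    apply hs₀
    ext
    rw [Units.val_one]
    exact sub_eq_zero.mp h
  set e : Module.End k V := (c - 1)⁻¹ • (ρ s₀ - 1) with he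
  have he_apply : ∀ x, e x = (c - 1)⁻¹ • (ρ s₀ x - x) := by
    intro x
    simp [he]
  have he_mem : ∀ x, e x ∈ Vc := fun x => by
    rw [he_apply]; exact Vc.smul_mem _ (ha x)
  have he_fix : ∀ x ∈ Vc, e x = x := by
    intro x hx
    have h1 : c • x - x = (c - 1) • x := by rw [sub_smul, one_smul]
    rw [he_apply, hb x hx, h1, smul_smul, inv_mul_cancel₀ hc1, one_smul]
  have hee : ∀ x, e (e x) = e x := fun x => he_fix _ (he_mem x)
  have hσ : ∀ x, ρ s₀ x = x + (c - 1) • e x := by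
    intro x
    rw [he_apply, smul_smul, mul_inv_cancel₀ hc1, one_smul]; abel
  have hσ' : ∀ x, ρ s₀⁻¹ x = x + (c⁻¹ - 1) • e x := by
    intro x
    have h1 : ρ s₀ (x + (c⁻¹ - 1) • e x) = x := by
      rw [map_add, map_smul, hσ x, hb _ (he_mem x), smul_smul, add_assoc, ← add_smul]
      have : c - 1 + (c⁻¹ - 1) * c = 0 := by field_simp; ring
      rw [this, zero_smul, add_zero]
    conv_lhs => rw [← h1]
    rw [rho_inv_apply]
  -- (3)
  set τ : G → k := fun g => (c - 1)⁻¹ * (t (g * s₀) - t g) with hτ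
  have h3 : ∀ g x, ρ g (e x) + ((om g : kˣ) : k) • (ρ g⁻¹ x - e (ρ g⁻¹ x)) = τ g • x := by
    intro g x
    have h1 := hCH.apply (g * s₀) x
    have h2 := hCH.apply g x
    rw [map_mul ρ, Module.End.mul_apply, mul_inv_rev, map_mul ρ, Module.End.mul_apply, hσ x, hσ',
      map_mul om, Units.val_mul, map_add, map_smul, ← hc, smul_add, smul_smul] at h1
    have h5 : ((om g : kˣ) : k) * c * (c⁻¹ - 1) = ((om g : kˣ) : k) * (1 - c) := by
      field_simp
    rw [h5] at h1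
    have h4 : (c - 1) • (ρ g (e x) + ((om g : kˣ) : k) • (ρ g⁻¹ x - e (ρ g⁻¹ x)))
        = (t (g * s₀) - t g) • x := by
      rw [sub_smul (t (g * s₀)), ← h1, ← h2]
      module
    simp only [hτ]
    rw [mul_smul, ← h4, smul_smul, inv_mul_cancel₀ hc1, one_smul]
  -- (4)
  have h4a : ∀ g x, e (ρ g (e x)) = τ g • e x := by
    intro g x
    have := congrArg e (h3 g x)
    rw [map_add, map_smul, map_sub, hee, sub_self, smul_zero, add_zero, map_smul] at this
    exact this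
  have h4b : ∀ g x, ((om g : kˣ) : k) • (ρ g⁻¹ (x - e x) - e (ρ g⁻¹ (x - e x)))
      = τ g • (x - e x) := by
    intro g x
    have := h3 g (x - e x)
    rw [map_sub e, hee, sub_self, map_zero, zero_add] at this
    exact this
  obtain ⟨g₀, hg₀⟩ := hns
  -- (5)
  have h5a : ∃ z₀, e z₀ ≠ 0 := by
    by_contra hcon
    push Not at hcon
    apply hg₀
    refine ⟨((om g₀⁻¹ : kˣ) : k)⁻¹ * τ g₀⁻¹, ?_⟩
    ext x
    have := h3 g₀⁻¹ x
    rw [hcon, hcon, map_zero, zero_add, sub_zero, inv_inv] at this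
    rw [LinearMap.smul_apply, Module.End.one_apply, mul_smul, ← this, smul_smul,
      inv_mul_cancel₀ (om g₀⁻¹).ne_zero, one_smul]
  have h5b : ∃ z, z - e z ≠ 0 := by
    by_contra hcon
    push Not at hcon
    have hcon' : ∀ x, e x = x := fun x => (sub_eq_zero.mp (hcon x)).symm
    apply hg₀
    refine ⟨τ g₀, ?_⟩
    ext x
    have := h3 g₀ x
    rw [hcon', hcon', sub_self, smul_zero, add_zero] at this
    rw [LinearMap.smul_apply, Module.End.one_apply, this]
  obtain ⟨z₀, hz₀⟩ := h5a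
  obtain ⟨z, hz⟩ := h5b
  have hey : e (z - e z) = 0 := by rw [map_sub, hee, sub_self]
  -- (7)
  have h7a : ∀ x, e x ∈ Submodule.span k {e z₀} := by
    intro x
    have hle : Submodule.span k (Set.range fun g : G => ρ g (e z₀))
        ≤ (Submodule.span k {e z₀}).comap e := by
      rw [Submodule.span_le]
      rintro _ ⟨g, rfl⟩
      change e (ρ g (e z₀)) ∈ Submodule.span k {e z₀}
      rw [h4a]
      exact Submodule.smul_mem _ _ (Submodule.mem_span_singleton_self _)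
    rw [hirr.span_orbit hz₀] at hle
    exact hle (Submodule.mem_top (x := x))
  have h7b : ∀ x, x - e x ∈ Submodule.span k {z - e z} := by
    intro x
    have hle : Submodule.span k (Set.range fun g : G => ρ g (z - e z))
        ≤ (Submodule.span k {z - e z}).comap (1 - e) := by
      rw [Submodule.span_le]
      rintro _ ⟨g, rfl⟩
      change (1 - e) (ρ g (z - e z)) ∈ Submodule.span k {z - e z}
      rw [LinearMap.sub_apply, Module.End.one_apply]
      have := h4b g⁻¹ z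
      rw [inv_inv] at this
      have h8 : ρ g (z - e z) - e (ρ g (z - e z))
          = (((om g⁻¹ : kˣ) : k)⁻¹ * τ g⁻¹) • (z - e z) := by
        rw [mul_smul, ← this, smul_smul, inv_mul_cancel₀ (om g⁻¹).ne_zero, one_smul]
      rw [h8]
      exact Submodule.smul_mem _ _ (Submodule.mem_span_singleton_self _)
    rw [hirr.span_orbit hz] at hle
    have := hle (Submodule.mem_top (x := x))
    rwa [Submodule.mem_comap, LinearMap.sub_apply, Module.End.one_apply] at this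
  refine ⟨e z₀, z - e z, hz₀, he_mem _, ?_, ?_, ?_, ?_⟩
  · intro hmem
    apply hz
    rw [← he_fix _ hmem, hey]
  · rw [hσ, hey, smul_zero, add_zero]
  · intro x hx
    obtain ⟨n, hn⟩ := Submodule.mem_span_singleton.mp (h7a x)
    exact ⟨n, by rw [hn, he_fix x hx]⟩
  · intro x
    obtain ⟨m, hm⟩ := Submodule.mem_span_singleton.mp (h7a x)
    obtain ⟨n, hn⟩ := Submodule.mem_span_singleton.mp (h7b x)
    exact ⟨m, n, by rw [hm, hn]; abel⟩

end Fermat.Agent.S44.Soft
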