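import Fermat.Agent.S44.Soft.AbsKer

/-!
# S44/Soft, abstract layer: (RED)   [TASK `S44/Soft-AbsRed`]

`all_scalar_of_split`.  `Irr ρ`, `CH ρ (χ₁ * χ₂) (χ₁ + χ₂)`.
 (1) every `g` with `χ₁ g = 1 = χ₂ g` acts trivially: `ker_core` (`om g = 1`, `t (g * h) = χ₁ h + χ₂ h = t h`).
 (2) so commutators act trivially and `ρ g * ρ g' = ρ g' * ρ g`  (`g * g' = (g * g' * g⁻¹ * g'⁻¹) * (g' * g)`).
 (3) multiply `CH` for `g` by `ρ g`: `(ρ g - χ₁ g) * (ρ g - χ₂ g) = 0` (and the two factors commute).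
 (4) `ker (ρ g - χ₂ g • 1)` is stable by (2) (`stable_ker_of_intertwine` with `f := ρ g'`), so it is `⊤` (`ρ g = χ₂ g • 1`) or `⊥`;
     in the latter case `(ρ g - χ₂ g)((ρ g - χ₁ g) x) = 0` gives `ρ g = χ₁ g • 1`.

`scalar_transfer`.  All `ρ₂ g` scalar, `V₂` nontrivial: choose `c g` with `ρ₂ g = c g • 1`; `c` is multiplicative with `c 1 = 1` (`V₂` nontrivial:
`a • (1 : End) = b • 1 → a = b`), so it defines `χ : G →* kˣ` (`MonoidHom.toHomUnits` of the monoid hom `G →* k`).  `CH ρ₂` gives `t g = χ g + om g * (χ g)⁻¹`.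
Apply `all_scalar_of_split` to `ρ₁` with `χ₁ := χ`, `χ₂ := om * χ⁻¹`.

`finrank_eq_one_of_all_scalar`.  Take `x ≠ 0`; `span {x}` is stable, `≠ ⊥`, so `= ⊤`; `finrank_eq_one_iff'` or `finrank_span_singleton` + `finrank_top`.
-/

set_option autoImplicit false

namespace Fermat.Agent.S44.Soft

variable {k G V V₁ V₂ : Type*} [Field k] [Group G] [AddCommGroup V] [Module k V]
  [AddCommGroup V₁] [Module k V₁] [AddCommGroup V₂] [Module k V₂]

/-- **(RED)**, irreducible form. -/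
theorem all_scalar_of_split {ρ : G →* Module.End k V} (hirr : Irr ρ) (χ₁ χ₂ : G →* kˣ)
    (hCH : CH ρ (χ₁ * χ₂) (fun g => ((χ₁ g : kˣ) : k) + ((χ₂ g : kˣ) : k))) :
    ∀ g : G, IsScalar (ρ g) := by
  have h1 : ∀ g : G, χ₁ g = 1 → χ₂ g = 1 → ρ g = 1 := by
    intro g hg1 hg2
    refine ker_core hirr hCH g ?_ ?_
    · rw [MonoidHom.mul_apply, hg1, hg2, one_mul]
    · intro h
      simp only [map_mul, hg1, hg2, one_mul]
  have hcomm : ∀ (χ : G →* kˣ) (g g' : G), χ (g * g' * g⁻¹ * g'⁻¹) = 1 := by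
    intro χ g g'
    simp only [map_mul, map_inv]
    rw [mul_comm (χ g) (χ g'), mul_inv_cancel_right, mul_inv_cancel]
  have h2 : ∀ g g' : G, ρ g * ρ g' = ρ g' * ρ g := by
    intro g g'
    have hc : ρ (g * g' * g⁻¹ * g'⁻¹) = 1 := h1 _ (hcomm χ₁ g g') (hcomm χ₂ g g')
    have e : g * g' = (g * g' * g⁻¹ * g'⁻¹) * (g' * g) := by group
    rw [← map_mul, e, map_mul, hc, one_mul, map_mul]
  intro g
  obtain ⟨a, ha⟩ : ∃ a : k, a = ((χ₁ g : kˣ) : k) := ⟨_, rfl⟩
  obtain ⟨b, hb⟩ : ∃ b : k, b = ((χ₂ g : kˣ) : k) := ⟨_, rfl⟩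
  have h3 : ∀ x : V, ρ g (ρ g x) + (a * b) • x = (a + b) • ρ g x := by
    intro x
    have h := hCH.apply g (ρ g x)
    rw [rho_inv_apply, MonoidHom.mul_apply, Units.val_mul, ← ha, ← hb] at h
    exact h
  have hst : Stable ρ (LinearMap.ker (ρ g - b • (1 : Module.End k V))) := by
    apply stable_ker_of_intertwine
    intro g'
    refine ⟨ρ g', ?_⟩
    rw [sub_mul, mul_sub, h2 g g', smul_mul_assoc, one_mul, mul_smul_comm, mul_one]
  rcases hirr.2 _ hst with h0 | h0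
  · refine ⟨a, ?_⟩
    ext x
    have hx : ρ g x - a • x ∈ LinearMap.ker (ρ g - b • (1 : Module.End k V)) := by
      rw [LinearMap.mem_ker]
      simp only [LinearMap.sub_apply, LinearMap.smul_apply, Module.End.one_apply, map_sub,
        map_smul]
      have h := h3 x
      rw [add_smul, mul_smul] at h
      rw [smul_sub, sub_sub_sub_eq, sub_eq_zero]
      rw [h, add_comm]
    rw [h0, Submodule.mem_bot, sub_eq_zero] at hx
    rw [hx, LinearMap.smul_apply, Module.End.one_apply]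
  · refine ⟨b, ?_⟩
    ext x
    have hx : x ∈ LinearMap.ker (ρ g - b • (1 : Module.End k V)) := by
      rw [h0]
      trivial
    rw [LinearMap.mem_ker, LinearMap.sub_apply, sub_eq_zero] at hx
    exact hx

theorem scalar_transfer {ρ₁ : G →* Module.End k V₁} {ρ₂ : G →* Module.End k V₂} {om : G →* kˣ}
    {t : G → k} (h₁ : CH ρ₁ om t) (h₂ : CH ρ₂ om t) (hirr : Irr ρ₁) [Nontrivial V₂]
    (hs : ∀ g : G, IsScalar (ρ₂ g)) : ∀ g : G, IsScalar (ρ₁ g) := by
  choose c hc using hs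
  have hinj : ∀ a b : k, a • (1 : Module.End k V₂) = b • (1 : Module.End k V₂) → a = b := by
    intro a b hab
    obtain ⟨x, hx⟩ := exists_ne (0 : V₂)
    have h := congrArg (fun f : Module.End k V₂ => f x) hab
    simp only [LinearMap.smul_apply, Module.End.one_apply] at h
    exact smul_left_injective k hx h
  let χ0 : G →* k :=
    { toFun := c
      map_one' := hinj _ _ (by rw [← hc, map_one, one_smul])
      map_mul' := fun g h => hinj _ _ (by
        rw [← hc, map_mul, hc g, hc h, smul_mul_smul_comm, one_mul]) }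
  let χ : G →* kˣ := χ0.toHomUnits
  have hχ : ∀ g, ((χ g : kˣ) : k) = c g := fun g => rfl
  have ht : ∀ g, t g = ((χ g : kˣ) : k) + (((om * χ⁻¹) g : kˣ) : k) := by
    intro g
    apply hinj
    have e : ((χ g⁻¹ : kˣ) : k) = (((χ g)⁻¹ : kˣ) : k) := by rw [map_inv]
    rw [← h₂ g, hc g, hc g⁻¹, ← hχ g, ← hχ g⁻¹, e, MonoidHom.mul_apply, MonoidHom.inv_apply,
      Units.val_mul, add_smul, mul_smul]
  have hCH : CH ρ₁ (χ * (om * χ⁻¹))
      (fun g => ((χ g : kˣ) : k) + (((om * χ⁻¹) g : kˣ) : k)) := by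
    intro g
    have e : χ * (om * χ⁻¹) = om := MonoidHom.ext fun g => by
      rw [MonoidHom.mul_apply, MonoidHom.mul_apply, MonoidHom.inv_apply, mul_comm (om g),
        mul_inv_cancel_left]
    rw [e]
    change _ = (((χ g : kˣ) : k) + (((om * χ⁻¹) g : kˣ) : k)) • (1 : Module.End k V₁)
    rw [← ht g]
    exact h₁ g
  exact all_scalar_of_split hirr χ (om * χ⁻¹) hCH

theorem finrank_eq_one_of_all_scalar {ρ : G →* Module.End k V} (hirr : Irr ρ)
    (hs : ∀ g : G, IsScalar (ρ g)) : Module.finrank k V = 1 := by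
  have hnt := hirr.1
  obtain ⟨x, hx⟩ := exists_ne (0 : V)
  have hst : Stable ρ (Submodule.span k {x}) := by
    intro g y hy
    obtain ⟨c, hc⟩ := hs g
    rw [hc, LinearMap.smul_apply, Module.End.one_apply]
    exact Submodule.smul_mem _ c hy
  rcases hirr.2 _ hst with h0 | h0
  · exact absurd (Submodule.span_singleton_eq_bot.1 h0) hx
  · rw [← finrank_top, ← h0, finrank_span_singleton hx]

end Fermat.Agent.S44.Soft
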