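import Fermat.Agent.S44.Soft.AbsDefs

/-!
# S44/Soft, abstract layer: existence of simple submodules, `±1`-eigenspaces   [TASK `S44/Soft-AbsSimple`]

`exists_irr_sub`: among the stable submodules `V₀ ≤ X`, `V₀ ≠ ⊥` take one of minimal `finrank` (`Nat.find` / `WellFounded.min` /
strong induction on `finrank k X`).  A stable submodule `U'` of `↥V₀` (for `res ρ V₀ h`) gives the stable submodule `U'.map V₀.subtype ≤ V₀` of `V`;
if it is `≠ ⊥` and `≠ V₀` its finrank is smaller (`Submodule.finrank_lt_finrank_of_lt`).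
`Nontrivial ↥V₀`: `Submodule.nontrivial_iff_ne_bot`.

`exists_eps`: `x ∈ X`, `x ≠ 0`.  `x + w x` and `x - w x` lie in `X`, `w (x + w x) = x + w x`, `w (x - w x) = -(x - w x)`; they are not both `0` since their sum is `2 x ≠ 0`.
-/

set_option autoImplicit false

namespace Fermat.Agent.S44.Soft

variable {k G V : Type*} [Field k] [Group G] [AddCommGroup V] [Module k V]

theorem exists_irr_sub [FiniteDimensional k V] (ρ : G →* Module.End k V) (X : Submodule k V)
    (hX : Stable ρ X) (hne : X ≠ ⊥) :
    ∃ (V₀ : Submodule k V) (h : Stable ρ V₀), V₀ ≤ X ∧ Irr (res ρ V₀ h) := by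
  induction hn : Module.finrank k X using Nat.strong_induction_on generalizing X with
  | _ n ih =>
    by_cases hirr : Irr (res ρ X hX)
    · exact ⟨X, hX, le_rfl, hirr⟩
    · have hnt : Nontrivial X := (Submodule.nontrivial_iff_ne_bot).2 hne
      unfold Irr at hirr
      push Not at hirr
      obtain ⟨U', hU', hb, ht⟩ := hirr hnt
      have hinj := Submodule.map_injective_of_injective (f := X.subtype) X.injective_subtype
      have hYX : U'.map X.subtype ≤ X := Submodule.map_subtype_le X U'
      have hYs : Stable ρ (U'.map X.subtype) := by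
        rintro g _ ⟨y, hy, rfl⟩
        exact ⟨res ρ X hX g y, hU' g y hy, rfl⟩
      have hYne : U'.map X.subtype ≠ ⊥ := by
        intro h
        apply hb
        apply hinj
        rw [h, Submodule.map_bot]
      have hYlt : U'.map X.subtype < X := by
        refine lt_of_le_of_ne hYX fun h => ht ?_
        apply hinj
        rw [h, Submodule.map_subtype_top]
      obtain ⟨V₀, h, hle, hI⟩ := ih _ (hn ▸ Submodule.finrank_lt_finrank_of_lt hYlt)
        (U'.map X.subtype) hYs hYne rfl
      exact ⟨V₀, h, hle.trans hYX, hI⟩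

theorem exists_eps (h2 : (2 : k) ≠ 0) (X : Submodule k V) (hne : X ≠ ⊥) (w : Module.End k V)
    (hwX : ∀ x ∈ X, w x ∈ X) (hww : ∀ x : V, w (w x) = x) :
    ∃ ε : ℤ, (ε = 1 ∨ ε = -1) ∧ ∃ x ∈ X, x ≠ 0 ∧ w x = ε • x := by
  obtain ⟨x, hx, hx0⟩ := (Submodule.ne_bot_iff X).1 hne
  by_cases h : x + w x = 0
  · refine ⟨-1, Or.inr rfl, x, hx, hx0, ?_⟩
    rw [neg_smul, one_smul]
    exact eq_neg_of_add_eq_zero_right h
  · refine ⟨1, Or.inl rfl, x + w x, X.add_mem hx (hwX x hx), h, ?_⟩
    rw [map_add, hww, one_smul, add_comm]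

end Fermat.Agent.S44.Soft
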