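import Fermat.Agent.S44.Soft.Defs
import Fermat.Agent.S54.Frobenius
import Fermat.Agent.Crux.Main

/-!
# S44/Soft: `nmKum` and `wKum` respect the eigenspaces   [TASK `S44/Soft-Comm`]

No formal computation with Hecke operators: `T_ℓ = φ + ℓ φ⁻¹` for a Frobenius `φ` at `ℓ` (Eichler-Shimura), and `nmKum`, `wKum` commute with the Galois action.

`heckeKum_eq_frob`: `eichlerShimura_Kum hm hℓ hℓN (Crux.crux N ℓ m hℓ hℓN hℓm) A hA φ hφ (galKum N m φ⁻¹ x)` and `galKum φ (galKum φ⁻¹ x) = x` (`galKum_mul`, `galKum_one`).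
`A`, `φ` exist: `S54.exists_frob ℓ hℓ`.
`nmKum_mem_XX`: for `ℓ ∉ S` prime, `ℓ ∤ M`: `ℓ ≠ p` (as `p ∈ S`) so `ℓ ∤ M * p`; write both `T_ℓ` (levels `M * p` and `M`) with the SAME `φ`; `SS.galKum_nmKum hp hpM σ x : galKum M m σ (nmKum ..) = nmKum .. (galKum (M*p) m σ x)` (check the direction in `SS/Formal/Norm.lean`), `map_add`, `map_nsmul`, `map_zsmul`.
`wKum_mem_XX`: the same with `SS.galKum_wKum` (`SS/Formal/AL.lean`).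
-/

set_option autoImplicit false

open AlgebraicCurve ModularCurve

namespace Fermat.Agent.S44.Soft

open Fermat.Agent.ES Fermat.Agent.SS Fermat.Agent.S33

theorem heckeKum_eq_frob {N m ℓ : ℕ} [NeZero N] [NeZero ℓ] (hm : m ≠ 0) (hℓ : ℓ.Prime)
    (hℓN : ¬ ℓ ∣ N) (hℓm : ¬ ℓ ∣ m) (A : ValuationSubring Qb) (hA : A.LiesOverPrime ℓ) (φ : GQ)
    (hφ : A.IsFrobeniusAt φ ℓ) (x : Kum N m) :
    heckeKum N ℓ hℓ hℓN m x = galKum N m φ x + ℓ • galKum N m φ⁻¹ x := by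
  have h := eichlerShimura_Kum hm hℓ hℓN (Crux.crux N ℓ m hℓ hℓN hℓm) A hA φ hφ
    (galKum N m φ⁻¹ x)
  have e : galKum N m φ (galKum N m φ⁻¹ x) = x := by
    rw [← galKum_mul, mul_inv_cancel, galKum_one]
  rw [e] at h
  have h2 : galKum N m φ x + ℓ • galKum N m φ⁻¹ x - heckeKum N ℓ hℓ hℓN m x = 0 := by
    rw [← h]
    abel
  exact (sub_eq_zero.mp h2).symm

theorem nmKum_mem_XX {M p : ℕ} [NeZero M] [NeZero p] (hp : p.Prime) (hpM : ¬ p ∣ M)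
    (S : Finset ℕ) (hpS : p ∈ S) (a : ℕ → ℤ) {x : Kum (M * p) p} (hx : x ∈ XX (M * p) p S a) :
    nmKum M p p x ∈ XX M p S a := by
  rw [mem_XX] at hx ⊢
  intro ℓ _ hℓ hℓM hℓS
  have hℓp : ℓ ≠ p := fun h => hℓS (h ▸ hpS)
  have hℓp' : ¬ ℓ ∣ p := fun h => hℓp ((Nat.prime_dvd_prime_iff_eq hℓ hp).mp h)
  have hℓN : ¬ ℓ ∣ M * p := fun h => (hℓ.dvd_mul.mp h).elim hℓM hℓp'
  obtain ⟨A, hA, φ, hφ⟩ := Fermat.Agent.S54.exists_frob ℓ hℓ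
  rw [heckeKum_eq_frob hp.ne_zero hℓ hℓM hℓp' A hA φ hφ, galKum_nmKum hp hpM, galKum_nmKum hp hpM,
    ← map_nsmul, ← map_add, ← heckeKum_eq_frob hp.ne_zero hℓ hℓN hℓp' A hA φ hφ,
    hx ℓ hℓ hℓN hℓS, map_zsmul]

theorem wKum_mem_XX {M p : ℕ} [NeZero M] [NeZero p] (hp : p.Prime)
    {w : FF (M * p) →ₐ[Qb] FF (M * p)} (hw : IsAL M p w)
    (S : Finset ℕ) (hpS : p ∈ S) (a : ℕ → ℤ) {x : Kum (M * p) p} (hx : x ∈ XX (M * p) p S a) :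
    wKum hw hp p x ∈ XX (M * p) p S a := by
  rw [mem_XX] at hx ⊢
  intro ℓ _ hℓ hℓN hℓS
  have hℓp : ℓ ≠ p := fun h => hℓS (h ▸ hpS)
  have hℓp' : ¬ ℓ ∣ p := fun h => hℓp ((Nat.prime_dvd_prime_iff_eq hℓ hp).mp h)
  obtain ⟨A, hA, φ, hφ⟩ := Fermat.Agent.S54.exists_frob ℓ hℓ
  rw [heckeKum_eq_frob hp.ne_zero hℓ hℓN hℓp' A hA φ hφ, galKum_wKum hw hp, galKum_wKum hw hp,
    ← map_nsmul, ← map_add, ← heckeKum_eq_frob hp.ne_zero hℓ hℓN hℓp' A hA φ hφ,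
    hx ℓ hℓ hℓN hℓS, map_zsmul]

end Fermat.Agent.S44.Soft
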