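import Fermat.Agent.S44.Soft.Defs
import Fermat.Agent.S33.Level.Ord
import Fermat.Agent.S33.Soft.KConn

/-!
# S44/Soft: the connected part `Vc` and the toric action of inertia on it

`VcK A hw hp := {x ∈ Kum (M p) p : InK1 x ∧ InK1 (w x)}`.
`toric_on_conn`: on the elements of `VcK` with `nm x = nm (w x) = 0` inertia acts through the cyclotomic character
(the middle of the proof of `S33.ord_of_good_toric`).
-/

set_option autoImplicit false

open AlgebraicCurve ModularCurve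

namespace Fermat.Agent.S44.Soft

open Fermat.Agent.ES Fermat.Agent.SS Fermat.Agent.S33 Fermat.Agent.S33.Soft

noncomputable section

variable {M p : ℕ} [NeZero M] [NeZero p] {A : ValuationSubring Qb}
  {w : FF (M * p) →ₐ[Qb] FF (M * p)}

/-- the classes with trivial reduction on both components. -/
def VcK (A : ValuationSubring Qb) (hw : IsAL M p w) (hp : p.Prime) :
    Submodule (ZMod p) (Kum (M * p) p) :=
  AddSubgroup.toZModSubmodule p
    { carrier := {x | InK1 A x ∧ InK1 A (wKum hw hp p x)}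
      add_mem' := by
        intro x y hx hy
        exact ⟨InK1.add hx.1 hy.1, by rw [map_add]; exact InK1.add hx.2 hy.2⟩
      zero_mem' := ⟨InK1.zero, by rw [map_zero]; exact InK1.zero⟩
      neg_mem' := by
        intro x hx
        exact ⟨InK1.neg hx.1, by rw [map_neg]; exact InK1.neg hx.2⟩ }

theorem mem_VcK (hw : IsAL M p w) (hp : p.Prime) {x : Kum (M * p) p} :
    x ∈ VcK A hw hp ↔ InK1 A x ∧ InK1 A (wKum hw hp p x) := Iff.rfl

theorem gal_sub_mem_VcK [NeZero (M * p)] (hw : IsAL M p w) (hp : p.Prime) {s : GQ}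
    (hs : s ∈ A.inertiaSubgroupIn ℚ) (x : Kum (M * p) p) :
    galKum (M * p) p s x - x ∈ VcK A hw hp := by
  refine ⟨inK1_gal_sub hs x, ?_⟩
  have h1 : wKum hw hp p (galKum (M * p) p s x - x)
      = galKum (M * p) p s (wKum hw hp p x) - wKum hw hp p x := by
    rw [map_sub, galKum_wKum]
  rw [h1]
  exact inK1_gal_sub hs _

theorem toric_on_conn (hp : p.Prime) (hpM : ¬ p ∣ M) (htoric : Toric M p hp)
    (hA : A.LiesOverPrime p) (hw : IsAL M p w) {x : Kum (M * p) p} (hx : x ∈ VcK A hw hp)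
    (hnm : nmKum M p p x = 0) (hnm' : nmKum M p p (wKum hw hp p x) = 0)
    (σ : GQ) (hσ : σ ∈ A.inertiaSubgroupIn ℚ) (e : ℕ) (he : ∀ ζ : Qb, ζ ^ p = 1 → σ ζ = ζ ^ e) :
    galKum (M * p) p σ x = e • x := by
  obtain ⟨hx, hwx⟩ := hx
  obtain ⟨c₁, hc₁, hd₁⟩ := deepCl_of_inK1 hp hA hx
  obtain ⟨c₂, hc₂, hd₂⟩ := deepCl_of_inK1 hp hA hwx
  obtain ⟨c, hc, hb⟩ : ∃ c : A, c ∈ IsLocalRing.maximalIdeal A ∧ Both A hw hp c x := by
    rcases ValuationRing.dvd_total c₁ c₂ with h | h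
    · exact ⟨c₁, hc₁, hd₁, hd₂.mono h⟩
    · exact ⟨c₂, hc₂, hd₁.mono h, hd₂⟩
  obtain ⟨n, hn⟩ := exists_dvd_pow hp hA hc
  have hn' : (p : A) ∣ c ^ (2 ^ n) := hn.trans (pow_dvd_pow c (Nat.lt_two_pow_self).le)
  have hbp := hb.to_p hp hpM hA hw hnm hnm' n c hc hn'
  have hpm := natCast_mem_maximalIdeal (p := p) hA
  have hbp2 : Both A hw hp ((p : A) ^ 2) x :=
    hbp.raise hp hpM hA hw (Ideal.pow_mem_of_mem _ hpm 2 (by norm_num))
      (pow_dvd_pow _ hp.two_le) (by rw [pow_two]) hnm hnm'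
  exact htoric A hA w hw σ hσ e he x hbp2.1 hbp2.2

end

end Fermat.Agent.S44.Soft
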