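import Fermat.Agent.S44.Soft.AbsKer
import Fermat.Agent.S44.Soft.AbsRed
import Fermat.Agent.S44.Soft.AbsLine
import Fermat.Agent.S44.Soft.AbsSimple
import Fermat.Agent.S44.Soft.Approx
import Fermat.Agent.S44.Soft.Comm
import Fermat.Agent.S44.Soft.Conn
import Fermat.Agent.S33.Soft.KIner

/-!
# S44/Soft: assembly  (T1)-(T3)

Output: the pair `(y₀, y)` consumed by `S44.Const`, `y ∉ Vc`, (E1), (E2), (E3).
-/

set_option autoImplicit false

open AlgebraicCurve ModularCurve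

namespace Fermat.Agent.S44.Soft

open Fermat.Agent.ES Fermat.Agent.SS Fermat.Agent.S33 Fermat.Agent.S58
open Fermat.Agent.S33.Soft (exists_inertia_omegaNe)

theorem finrank_tor (W : WeierstrassCurve ℤ) (hΔ : W.Δ ≠ 0) (p : ℕ) [Fact p.Prime] :
    Module.finrank (ZMod p) (Tor W p) = 2 := by
  have hp : p.Prime := Fact.out
  have := finite_tor W hΔ p hp.pos
  have h1 := card_tor W hΔ p hp.pos
  have h2 := Module.natCard_eq_pow_finrank (K := ZMod p) (V := Tor W p)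
  rw [h1, Nat.card_zmod] at h2
  exact (Nat.pow_right_injective hp.two_le h2).symm

theorem main {M p : ℕ} [NeZero M] [NeZero p] (hp : p.Prime) (hp2 : p ≠ 2) (hpM : ¬ p ∣ M)
    (htoric : Toric M p hp) (A : ValuationSubring Qb) (hA : A.LiesOverPrime p)
    {w : FF (M * p) →ₐ[Qb] FF (M * p)} (hw : IsAL M p w)
    (W : WeierstrassCurve ℤ) (hΔ : W.Δ ≠ 0) (S : Finset ℕ) (hpS : p ∈ S)
    (hMS : ∀ q : ℕ, q.Prime → q ∣ M → q ∈ S) (hWS : ∀ q : ℕ, q.Prime → (q : ℤ) ∣ W.Δ → q ∈ S)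
    (hirr : WeierstrassCurve.Affine.Point.GaloisRepIsIrreducible (K := Qb) ℚ (EQ W) p)
    (hnew : ∃ x : Kum (M * p) p, x ≠ 0 ∧ x ∈ XX (M * p) p S (fun ℓ => W.apOfModel ℓ))
    (hold : ∀ x ∈ XX M p S (fun ℓ => W.apOfModel ℓ), x = 0) :
    ∃ y₀ y : Kum (M * p) p, Pair M p hp A hw S (fun ℓ => W.apOfModel ℓ) y₀ y ∧
      ¬ (InK1 A y ∧ InK1 A (wKum hw hp p y)) ∧
      (∀ g : GQ, (∀ R : Pts W, p • R = 0 → g • R = R) → galKum (M * p) p g y = y) ∧
      (∀ g : GQ, galKum (M * p) p g y₀ = y₀ → galKum (M * p) p g y = y →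
        ∀ R : Pts W, p • R = 0 → g • R = R) ∧
      ∃ ℓ : ℕ, ℓ.Prime ∧ ℓ ∉ S ∧ ¬ (p : ℤ) ∣ W.apOfModel ℓ - ℓ - 1 := by
  have : Fact p.Prime := ⟨hp⟩
  have hNS : ∀ q : ℕ, q.Prime → q ∣ M * p → q ∈ S := by
    intro q hq h
    rcases (Nat.Prime.dvd_mul hq).1 h with h | h
    · exact hMS q hq h
    · rw [(Nat.prime_dvd_prime_iff_eq hq hp).1 h]; exact hpS
  -- the common relation (CH)
  choose L J hL hLS hom hU hX using exists_approx hp2 (M * p) W hΔ S hpS hNS hWS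
  set t : GQ → ZMod p := fun g => luc ((W.apOfModel (L g) : ℤ) : ZMod p) (L g : ZMod p) (J g) with ht
  have hCHU : CH (torRep W p) (om p) t := hU
  have hirrU : Irr (torRep W p) := irr_torRep W p hirr
  have hnsU : ∃ h : GQ, ¬ IsScalar (torRep W p h) := by
    by_contra hcon
    push Not at hcon
    have h1 := finrank_eq_one_of_all_scalar hirrU hcon
    rw [finrank_tor W hΔ p] at h1
    omega
  -- the `ε`-eigenspace
  have : Finite (Kum (M * p) p) := Fermat.Agent.ES.Glue.finite_Kum hp.pos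
  have : FiniteDimensional (ZMod p) (Kum (M * p) p) := Module.Finite.of_finite
  set X := XX (M * p) p S (fun ℓ => W.apOfModel ℓ) with hXdef
  let wE : Module.End (ZMod p) (Kum (M * p) p) := (wKum hw hp p).toZModLinearMap p
  have h2 : (2 : ZMod p) ≠ 0 := by
    intro h
    have h3 : ((2 : ℕ) : ZMod p) = 0 := by exact_mod_cast h
    rw [ZMod.natCast_eq_zero_iff] at h3
    exact hp2 ((Nat.prime_dvd_prime_iff_eq hp Nat.prime_two).1 h3)
  have hXne : X ≠ ⊥ := by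
    obtain ⟨x, hx0, hx⟩ := hnew
    intro h
    rw [h] at hx
    exact hx0 hx
  obtain ⟨ε, hε, x₁, hx₁X, hx₁0, hwx₁⟩ := exists_eps h2 X hXne wE
    (fun x hx => wKum_mem_XX hp hw S hpS _ hx) (fun x => wKum_wKum hw hp x)
  let Xe : Submodule (ZMod p) (Kum (M * p) p) := X ⊓ LinearMap.ker (wE - ε • (1 : Module.End (ZMod p) (Kum (M * p) p)))
  have hmemXe : ∀ x, x ∈ Xe ↔ x ∈ X ∧ wKum hw hp p x = ε • x := by
    intro x
    rw [Submodule.mem_inf, LinearMap.mem_ker]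
    constructor
    · rintro ⟨h1, h2⟩
      exact ⟨h1, sub_eq_zero.1 h2⟩
    · rintro ⟨h1, h2⟩
      exact ⟨h1, sub_eq_zero.2 h2⟩
  have hXe : Stable (galRep (M * p) p) Xe := by
    intro g x hx
    rw [hmemXe] at hx ⊢
    refine ⟨stable_XX (M * p) p S _ g x hx.1, ?_⟩
    rw [galRep_apply, ← galKum_wKum, hx.2, map_zsmul]
  have hXene : Xe ≠ ⊥ := by
    intro h
    have : x₁ ∈ Xe := (hmemXe x₁).2 ⟨hx₁X, hwx₁⟩
    rw [h] at this
    exact hx₁0 this
  obtain ⟨V₀, hV₀, hle, hirr0⟩ := exists_irr_sub (galRep (M * p) p) Xe hXe hXene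
  have hV₀X : ∀ x ∈ V₀, x ∈ X := fun x hx => ((hmemXe x).1 (hle hx)).1
  have hV₀w : ∀ x ∈ V₀, wKum hw hp p x = ε • x := fun x hx => ((hmemXe x).1 (hle hx)).2
  have hCH0 : CH (res (galRep (M * p) p) V₀ hV₀) (om p) t :=
    CH.res_of_forall V₀ hV₀ (fun g x hx => hX g x (hV₀X x hx))
  have hns0 : ∃ g : GQ, ¬ IsScalar (res (galRep (M * p) p) V₀ hV₀ g) := by
    by_contra hcon
    push Not at hcon
    have := hirr0.1
    obtain ⟨h, hh⟩ := hnsU
    exact hh (scalar_transfer hCHU hCH0 hirrU hcon h)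
  -- norms vanish on `X`
  have hnmX : ∀ x ∈ X, nmKum M p p x = 0 := fun x hx =>
    hold _ (nmKum_mem_XX hp hpM S hpS _ hx)
  have hnmX' : ∀ x ∈ X, nmKum M p p (wKum hw hp p x) = 0 := fun x hx =>
    hnmX _ (wKum_mem_XX hp hw S hpS _ hx)
  -- the line
  obtain ⟨s₀, hs₀I, hs₀ω⟩ := exists_inertia_omegaNe hp hp2 A hA
  let Vc : Submodule (ZMod p) V₀ := (VcK A hw hp).comap V₀.subtype
  obtain ⟨y₀, y, hy₀, hy₀c, hyc, -, hline, hspan⟩ := line_structure hirr0 hCH0 hns0 s₀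
    (om_ne_one_of_omegaNe p hs₀ω) Vc (fun x => gal_sub_mem_VcK hw hp hs₀I (x : Kum (M * p) p))
    (fun x hx => by
      apply Subtype.ext
      have h1 := toric_on_conn hp hpM htoric hA hw hx (hnmX _ (hV₀X _ x.2)) (hnmX' _ (hV₀X _ x.2))
        s₀ hs₀I _ (om_spec p s₀)
      rw [← natCast_zmod_smul (p := p), ZMod.natCast_zmod_val] at h1
      exact h1)
  refine ⟨(y₀ : Kum (M * p) p), (y : Kum (M * p) p), ?_, hyc, ?_, ?_, ?_⟩
  · exact
    { ne := fun h => hy₀ (Subtype.ext h)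
      k1 := hy₀c.1
      eps := ⟨ε, hε, hV₀w _ y₀.2, hV₀w _ y.2⟩
      nm₀ := hnmX _ (hV₀X _ y₀.2)
      nm := hnmX _ (hV₀X _ y.2)
      tor := fun s hs e he =>
        toric_on_conn hp hpM htoric hA hw hy₀c (hnmX _ (hV₀X _ y₀.2)) (hnmX' _ (hV₀X _ y₀.2))
          s hs e he
      coc := fun s hs => by
        have h1 : (res (galRep (M * p) p) V₀ hV₀ s y - y) ∈ Vc :=
          gal_sub_mem_VcK hw hp hs (y : Kum (M * p) p)
        obtain ⟨n, hn⟩ := hline _ h1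
        refine ⟨n.val, ?_⟩
        have h2 := congrArg (fun z : V₀ => (z : Kum (M * p) p)) hn
        have h3 : galKum (M * p) p s (y : Kum (M * p) p) - (y : Kum (M * p) p)
            = n • (y₀ : Kum (M * p) p) := h2
        rw [← natCast_zmod_smul (p := p), ZMod.natCast_zmod_val, ← h3]
        abel
      eig₀ := fun ℓ _ hℓ hℓN hS => hV₀X _ y₀.2 ℓ hℓ hℓN hS
      eig := fun ℓ _ hℓ hℓN hS => hV₀X _ y.2 ℓ hℓ hℓN hS }
  · -- (E1)
    intro g hg
    have h1 : torRep W p g = 1 := (torRep_eq_one_iff W p g).2 hg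
    have h2 := ker_transfer hCHU hCH0 hnsU hirr0 g h1
    have h3 := congrArg (fun f : Module.End (ZMod p) V₀ => ((f y : V₀) : Kum (M * p) p)) h2
    exact h3
  · -- (E2)
    intro g hg₀ hg
    have h1 : res (galRep (M * p) p) V₀ hV₀ g = 1 := by
      ext x
      obtain ⟨m, n, rfl⟩ := hspan x
      have e₀ : res (galRep (M * p) p) V₀ hV₀ g y₀ = y₀ := Subtype.ext hg₀
      have e₁ : res (galRep (M * p) p) V₀ hV₀ g y = y := Subtype.ext hg
      rw [map_add, map_smul, map_smul, e₀, e₁, Module.End.one_apply]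
    exact (torRep_eq_one_iff W p g).1 (ker_transfer hCH0 hCHU hns0 hirrU g h1)
  · -- (E3)
    by_contra hcon
    push Not at hcon
    obtain ⟨h, hh⟩ := hnsU
    apply hh
    refine all_scalar_of_split hirrU 1 (om p) ?_ h
    intro g
    have h1 := hCHU g
    have h2 : ((W.apOfModel (L g) : ℤ) : ZMod p) = 1 + (L g : ZMod p) := by
      have h3 := hcon (L g) (hL g) (hLS g)
      rw [← ZMod.intCast_zmod_eq_zero_iff_dvd] at h3
      push_cast at h3
      linear_combination h3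
    have h4 : (1 * om p : GQ →* (ZMod p)ˣ) = om p := by
      ext g
      simp
    rw [h4, h1, ht]
    simp only [MonoidHom.one_apply, Units.val_one]
    rw [h2, luc_split, hom g]

end Fermat.Agent.S44.Soft
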