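import Fermat.Agent.S44.Soft.Main
import Fermat.Agent.S44.Soft.New
import Fermat.Agent.S44.VC.Main
import Fermat.Agent.S13.Torsion
import Fermat.Agent.S33.Glue.Main
import Fermat.Agent.S33.Glue.Tower
import Fermat.Prelude.Def_FLTPrelim_ModularRep

/-!
# S44/Soft: the export for `S44/Top` (Frey form)

`soft_frey` : from an eigenform of level `M p` congruent to the Frey curve, irreducibility, and a polynomial `Pol` in the Hecke
operators which kills `Kum M p` with `p ∤ Pol(a)`  (i.e. "no eigenform of level `M` is congruent to `E`"), the pair `(y₀, y)` with exactly the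
hypotheses of `S44.core'` and `S44.valZ_of_frey`.
-/

set_option autoImplicit false

open AlgebraicCurve ModularCurve
open WeierstrassCurve WeierstrassCurve.Affine WeierstrassCurve.Affine.Point

namespace Fermat.Agent.S44.Soft

open Fermat.Agent.ES Fermat.Agent.SS Fermat.Agent.S33 Fermat.Agent.S58

theorem toric (M p : ℕ) [NeZero M] [NeZero p] (hp : p.Prime) (hp2 : p ≠ 2) (hpM : ¬ p ∣ M) :
    Toric M p hp :=
  Glue.toric_of_core (fun M p _ _ hp hpM hadm => Glue.coreK2W M p hp hpM hadm) M p hp hp2 hpM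

theorem model_Δ_ne_zero (P : FreyPackage) (W : WeierstrassCurve ℤ)
    (hW : W.IsIntegralModelOf P.freyCurve) : W.Δ ≠ 0 := by
  obtain ⟨C, hC⟩ := hW
  intro h0
  have h2 : (C • P.freyCurve).Δ = 0 := by
    rw [hC, WeierstrassCurve.map_Δ, h0]
    simp
  rw [WeierstrassCurve.variableChange_Δ] at h2
  rcases mul_eq_zero.1 h2 with h3 | h3
  · exact absurd h3 (pow_ne_zero _ (Units.ne_zero _))
  · exact Fermat.Agent.S13.frey_Δ_ne_zero P h3

/-- triviality on `E[p]` does not depend on the model. -/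
theorem triv_iff (E : WeierstrassCurve ℚ) (W : WeierstrassCurve ℤ) (hW : W.IsIntegralModelOf E)
    (p : ℕ) (g : GQ) :
    (∀ R : Pts W, p • R = 0 → g • R = R) ↔ ∀ R : (E⁄Qb).Point, p • R = 0 → g • R = R := by
  obtain ⟨C, hC⟩ := hW
  have key : ∃ e : (E⁄Qb).Point ≃+ ((C • E)⁄Qb).Point,
      ∀ (σ : GQ) (P : (E⁄Qb).Point), e (σ • P) = σ • e P := VC.exists_equiv E C
  rw [hC] at key
  obtain ⟨e, he⟩ := key
  constructor
  · intro h R hR
    have h0 : p • e R = 0 := by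
      have := map_nsmul e p R
      rw [hR, _root_.map_zero] at this
      exact this.symm
    have h1 := h (e R) h0
    exact e.injective ((he g R).trans h1)
  · intro h R hR
    obtain ⟨R', rfl⟩ := e.surjective R
    have h1 : p • R' = 0 := by
      apply e.injective
      rw [_root_.map_zero]
      exact (map_nsmul e p R').trans hR
    have h2 := he g R'
    rw [h R' h1] at h2
    exact h2.symm

/-- **Export of Soft.** -/
theorem soft_frey (P : FreyPackage) {M : ℕ} [NeZero M] [NeZero P.p] (hpM : ¬ P.p ∣ M)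
    (A : ValuationSubring Qb) (hA : A.LiesOverPrime P.p)
    {w : FF (M * P.p) →ₐ[Qb] FF (M * P.p)} (hw : IsAL M P.p w)
    (hirr : GaloisRepIsIrreducible (K := AlgebraicClosure ℚ) ℚ P.freyCurve P.p)
    (W : WeierstrassCurve ℤ) (hW : W.IsIntegralModelOf P.freyCurve)
    (S : Finset ℕ) (hpS : P.p ∈ S) (hMS : ∀ q : ℕ, q.Prime → q ∣ M → q ∈ S)
    (hWS : ∀ q : ℕ, q.Prime → (q : ℤ) ∣ W.Δ → q ∈ S)
    (f : CuspForm (CongruenceSubgroup.Gamma0 (M * P.p)) 2) (hf : f.IsNormalizedEigenform)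
    (𝔪 : Ideal (integralClosure ℤ ℂ)) (h𝔪 : 𝔪.IsMaximal)
    (hp𝔪 : (P.p : integralClosure ℤ ℂ) ∈ 𝔪)
    (hcong : ∀ ℓ : ℕ, ℓ.Prime → W.IsGoodPrimeFor ℓ → ¬ ℓ ∣ M * P.p → ℓ ≠ P.p →
      ∃ b : integralClosure ℤ ℂ, (b : ℂ) = ModularFormClass.qCoeff f ℓ ∧
        b - ((W.apOfModel ℓ : ℤ) : integralClosure ℤ ℂ) ∈ 𝔪)
    (Pol : FreeAlgebra ℤ (GP S))
    (hPol : FreeAlgebra.lift ℤ (fun ℓ : GP S => heckeT M P.p (ℓ.good hMS)) Pol = 0)
    (hPol' : ¬ (P.p : ℤ) ∣ FreeAlgebra.lift ℤ (fun ℓ : GP S => W.apOfModel ℓ.1) Pol) :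
    ∃ y₀ y : Kum (M * P.p) P.p, Pair M P.p P.pp A hw S (fun ℓ => W.apOfModel ℓ) y₀ y ∧
      ¬ InK1 A y ∧
      (∀ s : GQ, (∀ R : (P.freyCurve⁄Qb).Point, P.p • R = 0 → s • R = R) →
        galKum (M * P.p) P.p s y = y) ∧
      (∀ g : GQ, galKum (M * P.p) P.p g y₀ = y₀ → galKum (M * P.p) P.p g y = y →
        ∀ R : (P.freyCurve⁄Qb).Point, P.p • R = 0 → g • R = R) ∧
      ∃ ℓ : ℕ, ℓ.Prime ∧ ℓ ∉ S ∧ ¬ (P.p : ℤ) ∣ W.apOfModel ℓ - (ℓ + 1) := by
  have hp : P.p.Prime := P.pp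
  have hp2 : P.p ≠ 2 := by have := P.hp5; omega
  have hΔ := model_Δ_ne_zero P W hW
  have hNS : ∀ q : ℕ, q.Prime → q ∣ M * P.p → q ∈ S := by
    intro q hq h
    rcases (Nat.Prime.dvd_mul hq).1 h with h | h
    · exact hMS q hq h
    · rw [(Nat.prime_dvd_prime_iff_eq hq hp).1 h]; exact hpS
  have hirrW : GaloisRepIsIrreducible (K := Qb) ℚ (EQ W) P.p := by
    obtain ⟨C, hC⟩ := hW
    have h1 : GaloisRepIsIrreducible (K := Qb) ℚ (C • P.freyCurve).toAffine P.p :=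
      (VC.irreducible_iff P.freyCurve C P.p).2 hirr
    rw [hC] at h1
    exact h1
  have hnew := exists_new (M * P.p) P.p hp S hNS hpS (fun ℓ => W.apOfModel ℓ) f hf 𝔪 h𝔪 hp𝔪
    (fun ℓ hℓ hℓS => hcong ℓ hℓ (fun h => hℓS (hWS ℓ hℓ h)) (fun h => hℓS (hNS ℓ hℓ h))
      (fun h => hℓS (h ▸ hpS)))
  obtain ⟨y₀, y, hpair, hy, hE1, hE2, ℓ, hℓ, hℓS, hE3⟩ := main hp hp2 hpM (toric M P.p hp hp2 hpM)
    A hA hw W hΔ S hpS hMS hWS hirrW hnew
    (fun x hx => eq_zero_of_old M P.p hp S hMS _ Pol hPol hPol' x hx)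
  refine ⟨y₀, y, hpair, ?_, ?_, ?_, ℓ, hℓ, hℓS, ?_⟩
  · intro h
    apply hy
    refine ⟨h, ?_⟩
    obtain ⟨ε, hε, -, h2⟩ := hpair.eps
    rw [h2]
    rcases hε with rfl | rfl
    · rwa [one_smul]
    · rw [neg_smul, one_smul]
      exact Fermat.Agent.S33.Soft.InK1.neg h
  · intro s hs
    exact hE1 s ((triv_iff P.freyCurve W hW P.p s).2 hs)
  · intro g h0 h1
    exact (triv_iff P.freyCurve W hW P.p g).1 (hE2 g h0 h1)
  · intro h
    apply hE3
    have e : W.apOfModel ℓ - (ℓ : ℤ) - 1 = W.apOfModel ℓ - ((ℓ : ℤ) + 1) := by ring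
    rw [e]
    exact h

end Fermat.Agent.S44.Soft
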