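import Fermat.Agent.S44.Soft.AbsDefs

/-!
# S44/Soft, abstract layer: (KER)   [TASK `S44/Soft-AbsKer`]

Everything is a computation in the ring `Module.End k V`.

`ker_core`.  `γ := ρ g`, `η := ρ h`, `n := γ - 1`.  `CH` for `g * h` (with `om g = 1`, `t (g*h) = t h`) minus `CH` for `h`:
`γ η + om(h) η⁻¹ γ⁻¹ = η + om(h) η⁻¹`, i.e. `n η = (om(h) η⁻¹ γ⁻¹) n`   [`1 - γ⁻¹ = γ⁻¹ (γ - 1)`].
So `ker n` is stable (`stable_ker_of_intertwine`).  For `h = 1`: `n = γ⁻¹ n`, so `γ n = n`, `n * n = 0`.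
`Irr`: `ker n = ⊤` (then `n = 0`, done) or `ker n = ⊥`; in the latter case `n (n x) = 0` gives `n x = 0`, `x = 0` for all `x`,
contradicting `Nontrivial V`.

`ker_transfer`.  On `V₁` (`ρ₁ g = 1`): `CH` for `g * h` and for `h` give `(om g - 1) om(h) ρ₁ h⁻¹ = (t (g*h) - t h) • 1`.
If `om g ≠ 1` every `ρ₁ h⁻¹` is scalar, hence every `ρ₁ h` (apply this to `h⁻¹`): contradiction with `hns`.  So `om g = 1`, and then
`(t (g*h) - t h) • 1 = 0` in `End V₁`; `V₁` is nontrivial (otherwise everything is scalar: `f = 0 • 1`), so `t (g*h) = t h`.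
Conclude with `ker_core` on `V₂`.
-/

set_option autoImplicit false

namespace Fermat.Agent.S44.Soft

variable {k G V V₁ V₂ : Type*} [Field k] [Group G] [AddCommGroup V] [Module k V]
  [AddCommGroup V₁] [Module k V₁] [AddCommGroup V₂] [Module k V₂]

theorem ker_core {ρ : G →* Module.End k V} {om : G →* kˣ} {t : G → k} (hirr : Irr ρ)
    (hCH : CH ρ om t) (g : G) (hom : om g = 1) (ht : ∀ h : G, t (g * h) = t h) : ρ g = 1 := by
  have key : ∀ h : G, (ρ g - 1) * ρ h =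
      (((om h : kˣ) : k) • (ρ h⁻¹ * ρ g⁻¹)) * (ρ g - 1) := by
    intro h
    have e1 := hCH (g * h)
    have e2 := hCH h
    rw [map_mul, map_mul, hom, one_mul, mul_inv_rev, map_mul, ht h, ← e2] at e1
    have e3 : ρ g⁻¹ * (ρ g - 1) = 1 - ρ g⁻¹ := by rw [mul_sub, rho_inv_mul, mul_one]
    rw [smul_mul_assoc, mul_assoc, e3, mul_sub, mul_one, smul_sub, sub_mul, one_mul,
      sub_eq_sub_iff_add_eq_add, e1, add_comm]
  have hst : Stable ρ (LinearMap.ker (ρ g - 1)) :=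
    stable_ker_of_intertwine ρ (ρ g - 1) fun h => ⟨_, key h⟩
  have hnn : (ρ g - 1) * (ρ g - 1) = 0 := by
    have h1 := key 1
    rw [map_one, map_one, mul_one, inv_one, map_one, one_mul, Units.val_one, one_smul] at h1
    have h2 : ρ g * (ρ g - 1) = ρ g - 1 := by
      conv_lhs => rw [h1]
      rw [← mul_assoc, rho_mul_inv, one_mul]
    rw [sub_mul, one_mul, h2, sub_self]
  rcases hirr.2 _ hst with h0 | h0
  · exfalso
    have := hirr.1
    obtain ⟨x, hx⟩ := exists_ne (0 : V)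
    apply hx
    have h1 : (ρ g - 1) ((ρ g - 1) x) = 0 := by
      rw [← Module.End.mul_apply, hnn, LinearMap.zero_apply]
    have h2 : (ρ g - 1) x ∈ LinearMap.ker (ρ g - 1) := h1
    rw [h0, Submodule.mem_bot] at h2
    have h3 : x ∈ LinearMap.ker (ρ g - 1) := h2
    rwa [h0, Submodule.mem_bot] at h3
  · rw [LinearMap.ker_eq_top] at h0
    exact sub_eq_zero.1 h0

/-- **(KER)** -/
theorem ker_transfer {ρ₁ : G →* Module.End k V₁} {ρ₂ : G →* Module.End k V₂} {om : G →* kˣ}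
    {t : G → k} (h₁ : CH ρ₁ om t) (h₂ : CH ρ₂ om t) (hns : ∃ h : G, ¬ IsScalar (ρ₁ h))
    (hirr : Irr ρ₂) (g : G) (hg : ρ₁ g = 1) : ρ₂ g = 1 := by
  have hg' : ρ₁ g⁻¹ = 1 := by
    have := rho_inv_mul ρ₁ g
    rwa [hg, mul_one] at this
  have key : ∀ h : G, ((((om g : kˣ) : k) - 1) * ((om h : kˣ) : k)) • ρ₁ h⁻¹ =
      (t (g * h) - t h) • (1 : Module.End k V₁) := by
    intro h
    have e1 := h₁ (g * h)
    have e2 := h₁ h
    rw [map_mul, map_mul, hg, one_mul, mul_inv_rev, map_mul, hg', mul_one, Units.val_mul] at e1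
    rw [sub_smul, ← e1, ← e2, sub_mul, one_mul, sub_smul]
    abel
  have hnt : Nontrivial V₁ := by
    by_contra hcon
    rw [not_nontrivial_iff_subsingleton] at hcon
    obtain ⟨h, hh⟩ := hns
    exact hh ⟨0, LinearMap.ext fun x => Subsingleton.elim _ _⟩
  have hom : om g = 1 := by
    by_contra hcon
    have hne : ((om g : kˣ) : k) - 1 ≠ 0 := by
      intro h0
      exact hcon (Units.ext (by rw [Units.val_one]; exact sub_eq_zero.1 h0))
    obtain ⟨h, hh⟩ := hns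
    apply hh
    have e := key h⁻¹
    rw [inv_inv] at e
    have ha : (((om g : kˣ) : k) - 1) * ((om h⁻¹ : kˣ) : k) ≠ 0 :=
      mul_ne_zero hne (Units.ne_zero _)
    refine ⟨((((om g : kˣ) : k) - 1) * ((om h⁻¹ : kˣ) : k))⁻¹ * (t (g * h⁻¹) - t h⁻¹), ?_⟩
    rw [mul_smul, ← e, smul_smul, inv_mul_cancel₀ ha, one_smul]
  have ht : ∀ h : G, t (g * h) = t h := by
    intro h
    have e := key h
    rw [hom, Units.val_one, sub_self, zero_mul, zero_smul] at e
    rcases smul_eq_zero.1 e.symm with h0 | h0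
    · exact sub_eq_zero.1 h0
    · exact absurd h0 one_ne_zero
  exact ker_core hirr h₂ g hom ht

end Fermat.Agent.S44.Soft
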