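import Fermat.Agent.S44.Soft.Defs

/-!
# S44/Soft: the cyclotomic character mod `p`   [TASK `S44/Soft-Om`]

`om p : GQ →* (ZMod p)ˣ` with `g z = z ^ (om p g).val` for `z ^ p = 1`.

SKETCH.  `exists_om`: fix a primitive `p`-th root `ζ` (`HasEnoughRootsOfUnity.exists_primitiveRoot Qb p`).  For `g` there is `e` with `g z = z ^ e` for all `z ∈ μ_p`
(`S33.exists_cyc`, file `S33/Level/Ord.lean`, import it, or copy its 8 lines).  `c g := (e : ZMod p)` is independent of the choice (`IsPrimitiveRoot.pow_eq_pow_iff_modEq`/`S31.modEq_of_pow_eq`, `ZMod.natCast_eq_natCast_iff`),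
`c 1 = 1`, `c (g h) = c g * c h`; `MonoidHom.toHomUnits`.  `z ^ (e : ZMod p).val = z ^ (e % p) = z ^ e` for `z ^ p = 1` (`ZMod.val_natCast`, `pow_eq_pow_mod`).
Alternatively use Mathlib's `modularCyclotomicCharacter` (`modularCyclotomicCharacter.spec`, `.unique`), composed with `AlgEquiv.toRingEquiv`; or look at `S33/Soft/KChi.lean`.
`om_finiteLevel`: `L := ℚ(ζ)` (`IntermediateField.adjoin ℚ {ζ}`, finite dimensional as in `S31.approx`); if `σ ζ = ζ` then `σ z = z ^ 1` on `μ_p`, so `om σ = 1` by `om_eq_of` (`Units.ext`).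
`om_frob`: `S31.frob_apply_root A hℓ hA φ hφ (hnd : ¬ ℓ ∣ p) hz : φ z = z ^ ℓ` + `om_eq_of`.
`om_ne_one_of_omegaNe`: if `om g = 1` then `g z = z ^ 1`.
-/

set_option autoImplicit false

namespace Fermat.Agent.S44.Soft

open Fermat.Agent.ES Fermat.Agent.S33

theorem exists_om (p : ℕ) [Fact p.Prime] : ∃ om : GQ →* (ZMod p)ˣ,
    ∀ (g : GQ) (z : Qb), z ^ p = 1 → g z = z ^ (((om g : (ZMod p)ˣ) : ZMod p)).val := by
  have hp : p.Prime := Fact.out
  obtain ⟨ζ, hζ⟩ := HasEnoughRootsOfUnity.exists_primitiveRoot Qb p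
  have hex : ∀ g : GQ, ∃ e : ℕ, ∀ z : Qb, z ^ p = 1 → g z = z ^ e := by
    intro g
    have h1 : (g ζ) ^ p = 1 := by rw [← map_pow, hζ.pow_eq_one, map_one]
    obtain ⟨e, -, he⟩ := hζ.eq_pow_of_pow_eq_one h1
    refine ⟨e, fun z hz => ?_⟩
    obtain ⟨i, -, rfl⟩ := hζ.eq_pow_of_pow_eq_one hz
    rw [map_pow, ← he, ← pow_mul, ← pow_mul, mul_comm]
  choose e he using hex
  have huniq : ∀ (g : GQ) (n : ℕ), g ζ = ζ ^ n → (e g : ZMod p) = (n : ZMod p) := by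
    intro g n hn
    rw [ZMod.natCast_eq_natCast_iff]
    apply Fermat.Agent.S31.modEq_of_pow_eq hp.ne_zero hζ
    rw [← he g ζ hζ.pow_eq_one, hn]
  let c : GQ →* ZMod p :=
    { toFun := fun g => (e g : ZMod p)
      map_one' := by
        rw [huniq 1 1 (by simp), Nat.cast_one]
      map_mul' := fun g h => by
        rw [← Nat.cast_mul]
        apply huniq
        rw [AlgEquiv.mul_apply, he h ζ hζ.pow_eq_one, map_pow, he g ζ hζ.pow_eq_one, ← pow_mul] }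
  refine ⟨c.toHomUnits, fun g z hz => ?_⟩
  show g z = z ^ ((e g : ZMod p)).val
  rw [ZMod.val_natCast, he g z hz]
  exact pow_eq_pow_mod _ hz

/-- the cyclotomic character mod `p`. -/
noncomputable def om (p : ℕ) [Fact p.Prime] : GQ →* (ZMod p)ˣ := (exists_om p).choose

theorem om_spec (p : ℕ) [Fact p.Prime] (g : GQ) (z : Qb) (hz : z ^ p = 1) :
    g z = z ^ (((om p g : (ZMod p)ˣ) : ZMod p)).val := (exists_om p).choose_spec g z hz

theorem om_eq_of (p : ℕ) [Fact p.Prime] (g : GQ) (e : ℕ) (he : ∀ z : Qb, z ^ p = 1 → g z = z ^ e) :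
    ((om p g : (ZMod p)ˣ) : ZMod p) = (e : ZMod p) := by
  have hp : p.Prime := Fact.out
  obtain ⟨ζ, hζ⟩ := HasEnoughRootsOfUnity.exists_primitiveRoot Qb p
  rw [← ZMod.natCast_zmod_val ((om p g : (ZMod p)ˣ) : ZMod p), ZMod.natCast_eq_natCast_iff]
  apply Fermat.Agent.S31.modEq_of_pow_eq hp.ne_zero hζ
  rw [← om_spec p g ζ hζ.pow_eq_one, he ζ hζ.pow_eq_one]

theorem om_finiteLevel (p : ℕ) [Fact p.Prime] : GaloisFactorsThroughFiniteLevel (om p) := by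
  have hp : p.Prime := Fact.out
  obtain ⟨ζ, hζ⟩ := HasEnoughRootsOfUnity.exists_primitiveRoot Qb p
  have hζint : IsIntegral ℚ ζ :=
    ⟨Polynomial.X ^ p - 1, Polynomial.monic_X_pow_sub_C 1 hp.ne_zero, by simp [hζ.pow_eq_one]⟩
  refine ⟨IntermediateField.adjoin ℚ {ζ}, IntermediateField.adjoin.finiteDimensional hζint,
    fun σ hσ => ?_⟩
  have h1 : σ ζ = ζ := hσ ζ (IntermediateField.mem_adjoin_simple_self ℚ ζ)
  apply Units.ext
  rw [om_eq_of p σ 1 (fun z hz => ?_), Nat.cast_one, Units.val_one]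
  obtain ⟨i, -, rfl⟩ := hζ.eq_pow_of_pow_eq_one hz
  rw [map_pow, h1, pow_one]

theorem om_frob (p : ℕ) [Fact p.Prime] {ℓ : ℕ} (hℓ : ℓ.Prime) (hℓp : ℓ ≠ p)
    (A : ValuationSubring Qb) (hA : A.LiesOverPrime ℓ) (φ : GQ) (hφ : A.IsFrobeniusAt φ ℓ) :
    ((om p φ : (ZMod p)ˣ) : ZMod p) = (ℓ : ZMod p) := by
  have hp : p.Prime := Fact.out
  have hnd : ¬ ℓ ∣ p := fun h => hℓp ((Nat.prime_dvd_prime_iff_eq hℓ hp).mp h)
  exact om_eq_of p φ ℓ fun z hz => Fermat.Agent.S31.frob_apply_root A hℓ hA φ hφ hnd hz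

theorem om_ne_one_of_omegaNe (p : ℕ) [Fact p.Prime] {g : GQ} (h : OmegaNe p g) : om p g ≠ 1 := by
  have hp : p.Prime := Fact.out
  obtain ⟨ζ, hζ, hne⟩ := h
  intro h1
  apply hne
  rw [om_spec p g ζ hζ, h1, Units.val_one, ZMod.val_one'' hp.ne_one, pow_one]

end Fermat.Agent.S44.Soft
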